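import Mathlib

set_option autoImplicit false

open Polynomial IntermediateField

noncomputable section

namespace Fermat.Agent.S18.H67

section Core

variable {K : Type*} [Field K] (A : ValuationSubring K) {F : Type*} [Field F] [Algebra K F]
  (O : ValuationSubring F) (x : F)

/-- `O ∩ K = A` in valuation form. -/
theorem val_le_iff_of_mem_iff (hmem : ∀ a : K, algebraMap K F a ∈ O ↔ a ∈ A) (a b : K) :
    O.valuation (algebraMap K F a) ≤ O.valuation (algebraMap K F b) ↔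
      A.valuation a ≤ A.valuation b := by
  by_cases hb : b = 0
  · subst hb
    simp
  · have hb' : algebraMap K F b ≠ 0 := by simpa using hb
    have h0 : (0 : A.ValueGroup) < A.valuation b := by
      exact zero_lt_iff.mpr (by simpa using hb)
    have h0' : (0 : O.ValueGroup) < O.valuation (algebraMap K F b) := by
      exact zero_lt_iff.mpr (by simpa using hb)
    rw [← div_le_one₀ h0, ← div_le_one₀ h0', ← map_div₀, ← map_div₀, ← map_div₀,
      ValuationSubring.valuation_le_one_iff, ValuationSubring.valuation_le_one_iff]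
    exact hmem _

theorem val_lt_iff_of_mem_iff (hmem : ∀ a : K, algebraMap K F a ∈ O ↔ a ∈ A) (a b : K) :
    O.valuation (algebraMap K F a) < O.valuation (algebraMap K F b) ↔
      A.valuation a < A.valuation b := by
  rw [← not_le, ← not_le, val_le_iff_of_mem_iff A O hmem]

/-- A nonzero polynomial has a coefficient of maximal valuation. -/
theorem exists_coeff_max (p : K[X]) (hp : p ≠ 0) :
    ∃ n, p.coeff n ≠ 0 ∧ ∀ i, A.valuation (p.coeff i) ≤ A.valuation (p.coeff n) := by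
  have hne : p.support.Nonempty := Polynomial.support_nonempty.mpr hp
  obtain ⟨n, hn, hmax⟩ := Finset.exists_max_image p.support (fun i => A.valuation (p.coeff i)) hne
  refine ⟨n, Polynomial.mem_support_iff.mp hn, fun i => ?_⟩
  by_cases hi : i ∈ p.support
  · exact hmax i hi
  · rw [Polynomial.notMem_support_iff.mp hi, map_zero]
    exact zero_le

/-- an element `u` with `u, u⁻¹ ∈ O`, `u ≠ 0`, has valuation `1`. -/
theorem val_eq_one_of_mem_of_inv_mem {u : F} (hu0 : u ≠ 0) (h1 : u ∈ O) (h2 : u⁻¹ ∈ O) :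
    O.valuation u = 1 := by
  apply le_antisymm ((ValuationSubring.valuation_le_one_iff _ _).mpr h1)
  have := (ValuationSubring.valuation_le_one_iff _ _).mpr h2
  rw [map_inv₀] at this
  exact (inv_le_one₀ (zero_lt_iff.mpr (by simpa using hu0))).mp this

theorem mem_and_inv_mem_of_val_eq_one {u : F} (h : O.valuation u = 1) : u ∈ O ∧ u⁻¹ ∈ O := by
  refine ⟨(ValuationSubring.valuation_le_one_iff _ _).mp h.le, ?_⟩
  rw [← ValuationSubring.valuation_le_one_iff, map_inv₀, h, inv_one]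

/-- **Gauss norm**: if `p(x) ≠ 0` then the valuation of `p(x)` is the largest valuation of a
coefficient of `p`. -/
theorem gauss_val
    (hgauss : ∀ p : K[X], (∀ i, p.coeff i ∈ A) → (∃ i, p.coeff i ≠ 0 ∧ (p.coeff i)⁻¹ ∈ A) →
      aeval x p ∈ O ∧ (aeval x p)⁻¹ ∈ O)
    (p : K[X]) (hp : aeval x p ≠ 0) :
    ∃ n, p.coeff n ≠ 0 ∧ (∀ i, A.valuation (p.coeff i) ≤ A.valuation (p.coeff n)) ∧
      O.valuation (aeval x p) = O.valuation (algebraMap K F (p.coeff n)) := by
  have hp0 : p ≠ 0 := by rintro rfl; simp at hp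
  obtain ⟨n, hn, hmax⟩ := exists_coeff_max A p hp0
  refine ⟨n, hn, hmax, ?_⟩
  have h0 : (0 : A.ValueGroup) < A.valuation (p.coeff n) := zero_lt_iff.mpr (by simpa using hn)
  have hq := hgauss (C (p.coeff n)⁻¹ * p) (fun i => ?_) ⟨n, ?_, ?_⟩
  · rw [map_mul, aeval_C] at hq
    have hne : algebraMap K F (p.coeff n)⁻¹ * aeval x p ≠ 0 := mul_ne_zero (by simpa using hn) hp
    have h1 := val_eq_one_of_mem_of_inv_mem O hne hq.1 hq.2
    have hc0 : O.valuation (algebraMap K F (p.coeff n)) ≠ 0 := by simpa using hn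
    rw [map_mul, map_inv₀, map_inv₀] at h1
    exact (eq_of_inv_mul_eq_one h1).symm
  · rw [coeff_C_mul, ← ValuationSubring.valuation_le_one_iff, map_mul, map_inv₀]
    exact (inv_mul_le_one₀ h0).mpr (hmax i)
  · rw [coeff_C_mul, inv_mul_cancel₀ hn]; exact one_ne_zero
  · rw [coeff_C_mul, inv_mul_cancel₀ hn, inv_one]; exact A.one_mem

/-- If `A ≠ ⊤`, the Gauss condition forces `x` to be transcendental over `K`. -/
theorem aeval_ne_zero_of_gauss (hA : A ≠ ⊤) (hmem : ∀ a : K, algebraMap K F a ∈ O ↔ a ∈ A)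
    (hgauss : ∀ p : K[X], (∀ i, p.coeff i ∈ A) → (∃ i, p.coeff i ≠ 0 ∧ (p.coeff i)⁻¹ ∈ A) →
      aeval x p ∈ O ∧ (aeval x p)⁻¹ ∈ O)
    (p : K[X]) (hp : p ≠ 0) : aeval x p ≠ 0 := by
  intro h0
  obtain ⟨b, hb⟩ : ∃ b : K, b ∉ A := by
    by_contra hcon
    exact hA (eq_top_iff.mpr fun a _ => by_contra fun h => hcon ⟨a, h⟩)
  have hb0 : b ≠ 0 := by rintro rfl; exact hb A.zero_mem
  have hbv : A.valuation b⁻¹ < 1 := by
    have h1 : 1 < A.valuation b := by
      rw [← not_le, ValuationSubring.valuation_le_one_iff]; exact hb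
    rw [map_inv₀]
    exact inv_lt_one_of_one_lt₀ h1
  obtain ⟨n, hn, hmax⟩ := exists_coeff_max A p hp
  have h0' : (0 : A.ValueGroup) < A.valuation (p.coeff n) := zero_lt_iff.mpr (by simpa using hn)
  have hcb : ∀ i, A.valuation ((C b⁻¹ : K[X]).coeff i) < 1 := by
    intro i
    rw [coeff_C]
    split_ifs
    · exact hbv
    · rw [map_zero]; exact zero_lt_one
  have hq := hgauss (C (p.coeff n)⁻¹ * p + C b⁻¹) (fun i => ?_) ⟨n, ?_, ?_⟩
  · rw [map_add, map_mul, aeval_C, aeval_C, h0, mul_zero, zero_add] at hq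
    have : algebraMap K F b ∈ O := by simpa using hq.2
    exact hb ((hmem b).mp this)
  · rw [coeff_add, coeff_C_mul]
    refine A.add_mem _ _ ?_ ((ValuationSubring.valuation_le_one_iff _ _).mp (hcb i).le)
    rw [← ValuationSubring.valuation_le_one_iff, map_mul, map_inv₀]
    exact (inv_mul_le_one₀ h0').mpr (hmax i)
  · rw [coeff_add, coeff_C_mul, inv_mul_cancel₀ hn]
    intro h
    have := Valuation.map_one_add_of_lt (v := A.valuation) (hcb n)
    rw [h, map_zero] at this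
    exact zero_ne_one this
  · rw [coeff_add, coeff_C_mul, inv_mul_cancel₀ hn, ← ValuationSubring.valuation_le_one_iff,
      map_inv₀, Valuation.map_one_add_of_lt (v := A.valuation) (hcb n), inv_one]

/-- Gauss norm, lower bound (needs transcendence of `x`, which follows from `A ≠ ⊤`). -/
theorem gauss_coeff_le (hA : A ≠ ⊤) (hmem : ∀ a : K, algebraMap K F a ∈ O ↔ a ∈ A)
    (hgauss : ∀ p : K[X], (∀ i, p.coeff i ∈ A) → (∃ i, p.coeff i ≠ 0 ∧ (p.coeff i)⁻¹ ∈ A) →
      aeval x p ∈ O ∧ (aeval x p)⁻¹ ∈ O)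
    (p : K[X]) (n : ℕ) :
    O.valuation (algebraMap K F (p.coeff n)) ≤ O.valuation (aeval x p) := by
  by_cases hp : p = 0
  · subst hp; simp
  · obtain ⟨m, -, hmax, hval⟩ := gauss_val A O x hgauss p
      (aeval_ne_zero_of_gauss A O x hA hmem hgauss p hp)
    rw [hval, val_le_iff_of_mem_iff A O hmem]
    exact hmax n

section Orth

variable {ι : Type*} [Fintype ι] (θ : ι → F)

/-- orthonormality, upper bound: `|∑ r_i θ_i| ≤ max |r_i|`. -/
theorem orth_val_le
    (horth : ∀ r : ι → F, (∀ i, r i ∈ K⟮x⟯) → ((∑ i, r i * θ i) ∈ O ↔ ∀ i, r i ∈ O))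
    (r : ι → F) (hr : ∀ i, r i ∈ K⟮x⟯) (ρ : F) (hρ : ρ ∈ K⟮x⟯)
    (hle : ∀ i, O.valuation (r i) ≤ O.valuation ρ) :
    O.valuation (∑ i, r i * θ i) ≤ O.valuation ρ := by
  by_cases hρ0 : ρ = 0
  · subst hρ0
    have : ∀ i, r i = 0 := fun i => by
      have := hle i
      rw [map_zero, le_zero_iff, map_eq_zero] at this
      exact this
    simp [this]
  · have h0 : (0 : O.ValueGroup) < O.valuation ρ := zero_lt_iff.mpr (by simpa using hρ0)
    have h1 : (∑ i, (ρ⁻¹ * r i) * θ i) ∈ O := by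
      rw [horth _ (fun i => mul_mem (inv_mem hρ) (hr i))]
      intro i
      rw [← ValuationSubring.valuation_le_one_iff, map_mul, map_inv₀]
      exact (inv_mul_le_one₀ h0).mpr (hle i)
    have h2 : (∑ i, (ρ⁻¹ * r i) * θ i) = ρ⁻¹ * ∑ i, r i * θ i := by
      rw [Finset.mul_sum]
      exact Finset.sum_congr rfl fun i _ => mul_assoc _ _ _
    rw [h2, ← ValuationSubring.valuation_le_one_iff, map_mul, map_inv₀] at h1
    exact (inv_mul_le_one₀ h0).mp h1

/-- orthonormality, lower bound: `|r_i| ≤ |∑ r_j θ_j|` (for a nonzero sum; uses that the value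
group of `O` is that of `A`). -/
theorem orth_le_val
    (hscale : ∀ f : F, f ≠ 0 → ∃ c : K, c ≠ 0 ∧ algebraMap K F c * f ∈ O ∧
      (algebraMap K F c * f)⁻¹ ∈ O)
    (horth : ∀ r : ι → F, (∀ i, r i ∈ K⟮x⟯) → ((∑ i, r i * θ i) ∈ O ↔ ∀ i, r i ∈ O))
    (r : ι → F) (hr : ∀ i, r i ∈ K⟮x⟯) (hne : (∑ i, r i * θ i) ≠ 0) (i : ι) :
    O.valuation (r i) ≤ O.valuation (∑ j, r j * θ j) := by
  obtain ⟨c, hc0, hc1, hc2⟩ := hscale _ hne
  have hc0' : algebraMap K F c ≠ 0 := by simpa using hc0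
  have hv := val_eq_one_of_mem_of_inv_mem O (mul_ne_zero hc0' hne) hc1 hc2
  have h0 : (0 : O.ValueGroup) < O.valuation (algebraMap K F c) :=
    zero_lt_iff.mpr (by simpa using hc0)
  have h2 : (∑ j, (algebraMap K F c * r j) * θ j) = algebraMap K F c * ∑ j, r j * θ j := by
    rw [Finset.mul_sum]
    exact Finset.sum_congr rfl fun j _ => mul_assoc _ _ _
  have h3 := (horth _ (fun j => mul_mem (K⟮x⟯.algebraMap_mem c) (hr j))).mp (h2 ▸ hc1) i
  rw [← ValuationSubring.valuation_le_one_iff, ← hv, map_mul, map_mul] at h3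
  exact le_of_mul_le_mul_left h3 h0

/-- orthonormality: a nonzero sum has the valuation of one of its coordinates, the largest. -/
theorem orth_val_eq
    (hscale : ∀ f : F, f ≠ 0 → ∃ c : K, c ≠ 0 ∧ algebraMap K F c * f ∈ O ∧
      (algebraMap K F c * f)⁻¹ ∈ O)
    (horth : ∀ r : ι → F, (∀ i, r i ∈ K⟮x⟯) → ((∑ i, r i * θ i) ∈ O ↔ ∀ i, r i ∈ O))
    (r : ι → F) (hr : ∀ i, r i ∈ K⟮x⟯) (hne : (∑ i, r i * θ i) ≠ 0) :
    ∃ i₀, O.valuation (∑ i, r i * θ i) = O.valuation (r i₀) ∧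
      ∀ i, O.valuation (r i) ≤ O.valuation (r i₀) := by
  have hι : Nonempty ι := by
    by_contra h
    rw [not_nonempty_iff] at h
    exact hne (by simp)
  obtain ⟨i₀, -, hmax⟩ := Finset.exists_max_image (Finset.univ : Finset ι)
    (fun i => O.valuation (r i)) Finset.univ_nonempty
  refine ⟨i₀, le_antisymm ?_ ?_, fun i => hmax i (Finset.mem_univ i)⟩
  · exact orth_val_le O x θ horth r hr (r i₀) (hr i₀) fun i => hmax i (Finset.mem_univ i)
  · exact orth_le_val O x θ hscale horth r hr hne i₀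

/-- if `A ≠ ⊤`, an orthonormal family is linearly independent over `K(x)`. -/
theorem orth_eq_zero (hA : A ≠ ⊤) (hmem : ∀ a : K, algebraMap K F a ∈ O ↔ a ∈ A)
    (horth : ∀ r : ι → F, (∀ i, r i ∈ K⟮x⟯) → ((∑ i, r i * θ i) ∈ O ↔ ∀ i, r i ∈ O))
    (r : ι → F) (hr : ∀ i, r i ∈ K⟮x⟯) (h0 : (∑ i, r i * θ i) = 0) (i : ι) : r i = 0 := by
  by_contra hi
  obtain ⟨b, hb⟩ : ∃ b : K, b ∉ A := by
    by_contra hcon
    exact hA (eq_top_iff.mpr fun a _ => by_contra fun h => hcon ⟨a, h⟩)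
  have h2 : (∑ j, (algebraMap K F b * (r i)⁻¹ * r j) * θ j) =
      algebraMap K F b * (r i)⁻¹ * ∑ j, r j * θ j := by
    rw [Finset.mul_sum]
    exact Finset.sum_congr rfl fun j _ => mul_assoc _ _ _
  have h3 := (horth _ (fun j => mul_mem (mul_mem (K⟮x⟯.algebraMap_mem b) (inv_mem (hr i)))
    (hr j))).mp (by rw [h2, h0, mul_zero]; exact O.zero_mem) i
  rw [inv_mul_cancel_right₀ hi] at h3
  exact hb ((hmem b).mp h3)

/-- orthonormality, lower bound, all cases (`A ≠ ⊤`). -/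
theorem orth_le_val' (hA : A ≠ ⊤) (hmem : ∀ a : K, algebraMap K F a ∈ O ↔ a ∈ A)
    (hscale : ∀ f : F, f ≠ 0 → ∃ c : K, c ≠ 0 ∧ algebraMap K F c * f ∈ O ∧
      (algebraMap K F c * f)⁻¹ ∈ O)
    (horth : ∀ r : ι → F, (∀ i, r i ∈ K⟮x⟯) → ((∑ i, r i * θ i) ∈ O ↔ ∀ i, r i ∈ O))
    (r : ι → F) (hr : ∀ i, r i ∈ K⟮x⟯) (i : ι) :
    O.valuation (r i) ≤ O.valuation (∑ j, r j * θ j) := by
  by_cases hne : (∑ j, r j * θ j) = 0
  · rw [orth_eq_zero A O x θ hA hmem horth r hr hne i, map_zero]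
    exact zero_le
  · exact orth_le_val O x θ hscale horth r hr hne i

/-- **G6, corollary** (`𝔪`-version of orthonormality): `∑ r_i θ_i ∈ 𝔪_O ⟹ r_i ∈ 𝔪_O`. -/
theorem orth_mem_nonunits (hA : A ≠ ⊤) (hmem : ∀ a : K, algebraMap K F a ∈ O ↔ a ∈ A)
    (hscale : ∀ f : F, f ≠ 0 → ∃ c : K, c ≠ 0 ∧ algebraMap K F c * f ∈ O ∧
      (algebraMap K F c * f)⁻¹ ∈ O)
    (horth : ∀ r : ι → F, (∀ i, r i ∈ K⟮x⟯) → ((∑ i, r i * θ i) ∈ O ↔ ∀ i, r i ∈ O))
    (r : ι → F) (hr : ∀ i, r i ∈ K⟮x⟯) (h : (∑ i, r i * θ i) ∈ O.nonunits) (i : ι) :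
    r i ∈ O.nonunits := by
  rw [ValuationSubring.mem_nonunits_iff] at h ⊢
  exact lt_of_le_of_lt (orth_le_val' A O x θ hA hmem hscale horth r hr i) h

/-- polynomials in `x` over a subfield of `K` lie in `K(x)`. -/
theorem aeval_mem_adjoin_simple {K₀ : Type*} [Field K₀] [Algebra K₀ K] [Algebra K₀ F]
    [IsScalarTower K₀ K F] (P : K₀[X]) : aeval x P ∈ K⟮x⟯ := by
  rw [← aeval_map_algebraMap K x P]
  exact (IntermediateField.algebra_adjoin_le_adjoin K {x})
    (Polynomial.aeval_mem_adjoin_singleton K x)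

/-- **G6, core** (the value group of `O ∩ F₀` is that of `A ∩ K₀`).  If the `θ`-coordinates of
`f ≠ 0` are quotients of polynomials in `x` with coefficients in a subfield `K₀` of `K`, then
`f` is a unit of `O` times a nonzero element of `K₀`. -/
theorem exists_scale_val_of_coord
    {K₀ : Type*} [Field K₀] [Algebra K₀ K] [Algebra K₀ F] [IsScalarTower K₀ K F]
    (hgauss : ∀ p : K[X], (∀ i, p.coeff i ∈ A) → (∃ i, p.coeff i ≠ 0 ∧ (p.coeff i)⁻¹ ∈ A) →
      aeval x p ∈ O ∧ (aeval x p)⁻¹ ∈ O)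
    (hscale : ∀ f : F, f ≠ 0 → ∃ c : K, c ≠ 0 ∧ algebraMap K F c * f ∈ O ∧
      (algebraMap K F c * f)⁻¹ ∈ O)
    (horth : ∀ r : ι → F, (∀ i, r i ∈ K⟮x⟯) → ((∑ i, r i * θ i) ∈ O ↔ ∀ i, r i ∈ O))
    (f : F) (hf : f ≠ 0) (P : ι → K₀[X]) (Q : K₀[X]) (hQ : aeval x Q ≠ 0)
    (hfPQ : f * aeval x Q = ∑ i, aeval x (P i) * θ i) :
    ∃ c : K₀, c ≠ 0 ∧ O.valuation (algebraMap K₀ F c * f) = 1 := by
  have hg : (∑ i, aeval x (P i) * θ i) ≠ 0 := hfPQ ▸ mul_ne_zero hf hQ
  obtain ⟨i₀, hi₀, -⟩ := orth_val_eq O x θ hscale horth (fun i => aeval x (P i))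
    (fun i => aeval_mem_adjoin_simple x (P i)) hg
  have hP0 : aeval x (P i₀) ≠ 0 := by
    intro h
    rw [h, map_zero, map_eq_zero] at hi₀
    exact hg hi₀
  have e1 : aeval x ((P i₀).map (algebraMap K₀ K)) = aeval x (P i₀) :=
    aeval_map_algebraMap K x (P i₀)
  have e2 : aeval x (Q.map (algebraMap K₀ K)) = aeval x Q := aeval_map_algebraMap K x Q
  obtain ⟨n, hn, -, hvP⟩ := gauss_val A O x hgauss ((P i₀).map (algebraMap K₀ K)) (by rwa [e1])
  obtain ⟨m, hm, -, hvQ⟩ := gauss_val A O x hgauss (Q.map (algebraMap K₀ K)) (by rwa [e2])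
  rw [coeff_map] at hn hm
  rw [coeff_map, ← IsScalarTower.algebraMap_apply, e1] at hvP
  rw [coeff_map, ← IsScalarTower.algebraMap_apply, e2] at hvQ
  have hn' : (P i₀).coeff n ≠ 0 := fun h => hn (by rw [h, map_zero])
  have hm' : Q.coeff m ≠ 0 := fun h => hm (by rw [h, map_zero])
  refine ⟨Q.coeff m / (P i₀).coeff n, div_ne_zero hm' hn', ?_⟩
  have h2 : O.valuation f * O.valuation (aeval x Q) = O.valuation (aeval x (P i₀)) := by
    rw [← map_mul, hfPQ, hi₀]
  have hQv : O.valuation (aeval x Q) ≠ 0 := by simpa using hQ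
  have hPv : O.valuation (aeval x (P i₀)) ≠ 0 := by simpa using hP0
  rw [map_mul, map_div₀, map_div₀, ← hvP, ← hvQ, ← h2]
  rw [← h2] at hPv
  have hfv : O.valuation f ≠ 0 := left_ne_zero_of_mul hPv
  field_simp

/-- **G6, core**, membership form. -/
theorem exists_scale_of_coord
    {K₀ : Type*} [Field K₀] [Algebra K₀ K] [Algebra K₀ F] [IsScalarTower K₀ K F]
    (hgauss : ∀ p : K[X], (∀ i, p.coeff i ∈ A) → (∃ i, p.coeff i ≠ 0 ∧ (p.coeff i)⁻¹ ∈ A) →
      aeval x p ∈ O ∧ (aeval x p)⁻¹ ∈ O)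
    (hscale : ∀ f : F, f ≠ 0 → ∃ c : K, c ≠ 0 ∧ algebraMap K F c * f ∈ O ∧
      (algebraMap K F c * f)⁻¹ ∈ O)
    (horth : ∀ r : ι → F, (∀ i, r i ∈ K⟮x⟯) → ((∑ i, r i * θ i) ∈ O ↔ ∀ i, r i ∈ O))
    (f : F) (hf : f ≠ 0) (P : ι → K₀[X]) (Q : K₀[X]) (hQ : aeval x Q ≠ 0)
    (hfPQ : f * aeval x Q = ∑ i, aeval x (P i) * θ i) :
    ∃ c : K₀, c ≠ 0 ∧ algebraMap K₀ F c * f ∈ O ∧ (algebraMap K₀ F c * f)⁻¹ ∈ O := by
  obtain ⟨c, hc, hv⟩ := exists_scale_val_of_coord A O x θ hgauss hscale horth f hf P Q hQ hfPQ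
  exact ⟨c, hc, mem_and_inv_mem_of_val_eq_one O hv⟩

/-- a root in `K` of a monic polynomial with coefficients in `A` lies in `A`. -/
theorem root_mem_of_monic (Pm : K[X]) (hPm : Pm.Monic) (hPmA : ∀ i, Pm.coeff i ∈ A) (a : K)
    (ha : Pm.IsRoot a) : a ∈ A := by
  have hsub : (↑Pm.coeffs : Set K) ⊆ A.toSubring := by
    intro c hc
    obtain ⟨n, -, rfl⟩ := Polynomial.mem_coeffs_iff.mp hc
    exact hPmA n
  have hint : IsIntegral A a := by
    refine ⟨Pm.toSubring A.toSubring hsub, (Polynomial.monic_toSubring Pm _ hsub).mpr hPm, ?_⟩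
    have h1 := Polynomial.map_toSubring Pm A.toSubring hsub
    rw [Polynomial.eval₂_eq_eval_map]
    have h2 : (Pm.toSubring A.toSubring hsub).map (algebraMap A K) = Pm := h1
    rw [h2]
    exact ha
  obtain ⟨y, rfl⟩ := IsIntegrallyClosed.isIntegral_iff.mp hint
  exact y.2

/-- **G8, step 1**: the residue field of `A` is algebraically closed (when `K` is), so an element
of `O` whose residue is algebraic over it is congruent to an element of `A`. -/
theorem exists_sub_mem_nonunits_of_monic [IsAlgClosed K]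
    (hmem : ∀ a : K, algebraMap K F a ∈ O ↔ a ∈ A) (γ : F) (hγ : γ ∈ O)
    (Pm : K[X]) (hPm : Pm.Monic) (hPmA : ∀ i, Pm.coeff i ∈ A)
    (hγP : aeval γ Pm ∈ O.nonunits) :
    ∃ a ∈ A, γ - algebraMap K F a ∈ O.nonunits := by
  have heq := (IsAlgClosed.splits Pm).eq_prod_roots_of_monic hPm
  have h1 : aeval γ Pm = (Pm.roots.map (fun a => γ - algebraMap K F a)).prod := by
    conv_lhs => rw [heq]
    rw [map_multiset_prod, Multiset.map_map]
    congr 1
    apply Multiset.map_congr rfl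
    intro a _
    simp
  by_contra hcon
  have h2 : ∀ a ∈ Pm.roots, O.valuation (γ - algebraMap K F a) = 1 := by
    intro a ha
    have haA : a ∈ A := root_mem_of_monic A Pm hPm hPmA a (isRoot_of_mem_roots ha)
    have hle : O.valuation (γ - algebraMap K F a) ≤ 1 :=
      (ValuationSubring.valuation_le_one_iff _ _).mpr (sub_mem hγ ((hmem a).mpr haA))
    have hnlt : ¬ γ - algebraMap K F a ∈ O.nonunits := fun h => hcon ⟨a, haA, h⟩
    rw [ValuationSubring.mem_nonunits_iff, not_lt] at hnlt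
    exact le_antisymm hle hnlt
  rw [h1, ValuationSubring.mem_nonunits_iff, map_multiset_prod, Multiset.map_map,
    Multiset.prod_eq_one] at hγP
  · exact lt_irrefl _ hγP
  · intro z hz
    obtain ⟨a, ha, rfl⟩ := Multiset.mem_map.mp hz
    exact h2 a ha

/-- **G8, core** (the residue field of `A ∩ K₀` is algebraically closed in that of `O ∩ F₀`).
If `γ ∈ O` has residue algebraic over the residue field of `A` and the `θ`-coordinates of `γ`
and of `1` are quotients of polynomials in `x` with coefficients in a subfield `K₀` of `K`, then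
`γ` is congruent modulo `𝔪_O` to an element of `A ∩ K₀`. -/
theorem exists_const_of_coord [IsAlgClosed K]
    {K₀ : Type*} [Field K₀] [Algebra K₀ K] [Algebra K₀ F] [IsScalarTower K₀ K F]
    (hA : A ≠ ⊤) (hmem : ∀ a : K, algebraMap K F a ∈ O ↔ a ∈ A)
    (hgauss : ∀ p : K[X], (∀ i, p.coeff i ∈ A) → (∃ i, p.coeff i ≠ 0 ∧ (p.coeff i)⁻¹ ∈ A) →
      aeval x p ∈ O ∧ (aeval x p)⁻¹ ∈ O)
    (hscale : ∀ f : F, f ≠ 0 → ∃ c : K, c ≠ 0 ∧ algebraMap K F c * f ∈ O ∧
      (algebraMap K F c * f)⁻¹ ∈ O)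
    (horth : ∀ r : ι → F, (∀ i, r i ∈ K⟮x⟯) → ((∑ i, r i * θ i) ∈ O ↔ ∀ i, r i ∈ O))
    (γ : F) (hγ : γ ∈ O)
    (Pm : K[X]) (hPm : Pm.Monic) (hPmA : ∀ i, Pm.coeff i ∈ A)
    (hγP : aeval γ Pm ∈ O.nonunits)
    (N : ι → K₀[X]) (Q : K₀[X]) (hQ : aeval x Q ≠ 0)
    (hγc : γ * aeval x Q = ∑ i, aeval x (N i) * θ i)
    (E : ι → K₀[X]) (Q' : K₀[X]) (hQ' : aeval x Q' ≠ 0)
    (h1c : aeval x Q' = ∑ i, aeval x (E i) * θ i) :
    ∃ a' : K₀, algebraMap K₀ K a' ∈ A ∧ γ - algebraMap K₀ F a' ∈ O.nonunits := by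
  obtain ⟨a, haA, hγa⟩ := exists_sub_mem_nonunits_of_monic A O hmem γ hγ Pm hPm hPmA hγP
  set p : ι → K[X] := fun i =>
    (N i * Q').map (algebraMap K₀ K) - C a * (E i * Q).map (algebraMap K₀ K) with hp
  have hD : aeval x Q * aeval x Q' ≠ 0 := mul_ne_zero hQ hQ'
  have hD0 : (0 : O.ValueGroup) < O.valuation (aeval x Q * aeval x Q') :=
    zero_lt_iff.mpr (by simpa using hD)
  have hid : (γ - algebraMap K F a) * (aeval x Q * aeval x Q') = ∑ i, aeval x (p i) * θ i := by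
    have h3 : ∑ i, aeval x (p i) * θ i =
        aeval x Q' * (∑ i, aeval x (N i) * θ i) -
          algebraMap K F a * aeval x Q * (∑ i, aeval x (E i) * θ i) := by
      rw [Finset.mul_sum, Finset.mul_sum, ← Finset.sum_sub_distrib]
      apply Finset.sum_congr rfl
      intro i _
      simp only [hp, map_sub, map_mul, aeval_C, aeval_map_algebraMap]
      ring
    rw [h3, ← hγc, ← h1c]
    ring
  have hlt : ∀ i, O.valuation (aeval x (p i)) < O.valuation (aeval x Q * aeval x Q') := by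
    intro i
    have h1 := orth_le_val' A O x θ hA hmem hscale horth (fun i => aeval x (p i))
      (fun i => aeval_mem_adjoin_simple (K₀ := K) x (p i)) i
    rw [← hid, map_mul] at h1
    refine lt_of_le_of_lt h1 ?_
    exact mul_lt_of_lt_one_left hD0 ((ValuationSubring.mem_nonunits_iff _).mp hγa)
  have hDc : aeval x Q * aeval x Q' = ∑ i, aeval x (E i * Q) * θ i := by
    rw [h1c, Finset.mul_sum]
    apply Finset.sum_congr rfl
    intro i _
    rw [map_mul]
    ring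
  obtain ⟨i₁, hi₁, -⟩ := orth_val_eq O x θ hscale horth (fun i => aeval x (E i * Q))
    (fun i => aeval_mem_adjoin_simple x _) (hDc ▸ hD)
  rw [← hDc] at hi₁
  have hE0 : aeval x (E i₁ * Q) ≠ 0 := by
    intro h
    rw [h, map_zero, map_eq_zero] at hi₁
    exact hD hi₁
  obtain ⟨m, hm, -, hvE⟩ := gauss_val A O x hgauss ((E i₁ * Q).map (algebraMap K₀ K))
    (by rwa [aeval_map_algebraMap])
  rw [coeff_map] at hm
  rw [coeff_map, aeval_map_algebraMap] at hvE
  have hcm := gauss_coeff_le A O x hA hmem hgauss (p i₁) m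
  have hcoef : (p i₁).coeff m = algebraMap K₀ K ((N i₁ * Q').coeff m) -
      a * algebraMap K₀ K ((E i₁ * Q).coeff m) := by
    simp only [hp, coeff_sub, coeff_map, coeff_C_mul]
  have hlt2 : A.valuation ((p i₁).coeff m) <
      A.valuation (algebraMap K₀ K ((E i₁ * Q).coeff m)) := by
    rw [← val_lt_iff_of_mem_iff A O hmem]
    calc O.valuation (algebraMap K F ((p i₁).coeff m)) ≤ O.valuation (aeval x (p i₁)) := hcm
      _ < O.valuation (aeval x Q * aeval x Q') := hlt i₁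
      _ = _ := by rw [hi₁, hvE]
  have he0 : (0 : A.ValueGroup) < A.valuation (algebraMap K₀ K ((E i₁ * Q).coeff m)) :=
    zero_lt_iff.mpr (by simpa using hm)
  have hdiff : A.valuation (algebraMap K₀ K ((N i₁ * Q').coeff m / (E i₁ * Q).coeff m) - a)
      < 1 := by
    have h4 : algebraMap K₀ K ((N i₁ * Q').coeff m / (E i₁ * Q).coeff m) - a =
        (p i₁).coeff m / algebraMap K₀ K ((E i₁ * Q).coeff m) := by
      rw [hcoef, map_div₀]
      field_simp
    rw [h4, map_div₀]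
    exact (div_lt_one₀ he0).mpr hlt2
  refine ⟨(N i₁ * Q').coeff m / (E i₁ * Q).coeff m, ?_, ?_⟩
  · have h5 : algebraMap K₀ K ((N i₁ * Q').coeff m / (E i₁ * Q).coeff m) =
        a + (algebraMap K₀ K ((N i₁ * Q').coeff m / (E i₁ * Q).coeff m) - a) := by ring
    rw [h5]
    exact A.add_mem _ _ haA ((ValuationSubring.valuation_le_one_iff _ _).mp hdiff.le)
  · have h6 : γ - algebraMap K₀ F ((N i₁ * Q').coeff m / (E i₁ * Q).coeff m) =
        (γ - algebraMap K F a) -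
          algebraMap K F (algebraMap K₀ K ((N i₁ * Q').coeff m / (E i₁ * Q).coeff m) - a) := by
      rw [map_sub, ← IsScalarTower.algebraMap_apply]
      ring
    rw [h6, ValuationSubring.mem_nonunits_iff]
    refine lt_of_le_of_lt (Valuation.map_sub _ _ _)
      (max_lt ((ValuationSubring.mem_nonunits_iff _).mp hγa) ?_)
    have h7 := (val_lt_iff_of_mem_iff A O hmem
      (algebraMap K₀ K ((N i₁ * Q').coeff m / (E i₁ * Q).coeff m) - a) 1).mpr
      (by rwa [map_one])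
    rwa [map_one, map_one] at h7

end Orth

end Core

end Fermat.Agent.S18.H67
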