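/-
S18 / Program J, core 2, leaf K2-N (helper67): the leaves N-SCALE (`dsetup_scale`, G6) and
N-CONST (`dsetup_const`, G8) of helper8's sub-skeleton of `exists_descent`, VERBATIM, from the
packaging-independent cores of `DescCore.lean`.
-/
import Mathlib
import Fermat.Agent.S18.H74.Setup
import Fermat.Agent.S18.H19.Core2Defs
import Fermat.Agent.S18.H8.DescentDefs
import Fermat.Agent.S18.H67.DescCore

set_option autoImplicit false

open AlgebraicCurve IntermediateField Polynomial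

noncomputable section

namespace Fermat.Agent.S18.H67

open Fermat.Agent.S18.H74 Fermat.Agent.S18.H19 Fermat.Agent.S18.H8

/-- finitely many elements of `K₀(x)` are quotients of polynomials in `x` with a common
denominator. -/
theorem exists_common_denom {K₀ : Type*} [Field K₀] {F : Type*} [Field F] [Algebra K₀ F] (x : F)
    {ι : Type*} [Fintype ι] (r : ι → K₀⟮x⟯) :
    ∃ (P : ι → K₀[X]) (Q : K₀[X]), aeval x Q ≠ 0 ∧ ∀ i, (r i : F) * aeval x Q = aeval x (P i) := by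
  classical
  have h : ∀ i, ∃ P Q : K₀[X], aeval x Q ≠ 0 ∧ (r i : F) * aeval x Q = aeval x P := by
    intro i
    obtain ⟨P, Q, hPQ⟩ := (IntermediateField.mem_adjoin_simple_iff K₀ (r i : F)).mp (r i).2
    by_cases hQ : aeval x Q = 0
    · refine ⟨0, 1, by simp, ?_⟩
      rw [hPQ, hQ, div_zero]
      simp
    · exact ⟨P, Q, hQ, by rw [hPQ, div_mul_cancel₀ _ hQ]⟩
  choose P Q hQ hPQ using h
  refine ⟨fun i => P i * ∏ j ∈ Finset.univ.erase i, Q j, ∏ j, Q j, ?_, fun i => ?_⟩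
  · rw [map_prod]
    exact Finset.prod_ne_zero_iff.mpr fun j _ => hQ j
  · rw [← Finset.mul_prod_erase Finset.univ Q (Finset.mem_univ i), map_mul, map_mul, ← mul_assoc,
      hPQ i]

/-- `y ∈ 𝔪` iff `y = 0` or `y⁻¹ ∉ O`. -/
theorem mem_nonunits_iff_eq_zero_or {F : Type*} [Field F] (O : ValuationSubring F) (y : F) :
    y ∈ O.nonunits ↔ y = 0 ∨ y⁻¹ ∉ O := by
  rw [ValuationSubring.mem_nonunits_iff]
  by_cases hy : y = 0
  · subst hy
    simp
  · have h0 : (0 : O.ValueGroup) < O.valuation y := zero_lt_iff.mpr (by simpa using hy)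
    rw [← ValuationSubring.valuation_le_one_iff, map_inv₀, inv_le_one₀ h0, not_le]
    simp [hy]

/-- the maximal ideal of `O ∩ F₀`. -/
theorem mem_nonunits_comap_iff {F₀ F : Type*} [Field F₀] [Field F] (φ : F₀ →+* F)
    (O : ValuationSubring F) (y : F₀) : y ∈ (O.comap φ).nonunits ↔ φ y ∈ O.nonunits := by
  rw [mem_nonunits_iff_eq_zero_or, mem_nonunits_iff_eq_zero_or, ValuationSubring.mem_comap,
    map_inv₀, map_eq_zero]

section Leaves

variable {k K : Type*} [Field k] [Field K] [Algebra k K]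
  (A : ValuationSubring K) {F : Type*} [Field F] [Algebra K F] (O : ValuationSubring F)
  (K₀ : IntermediateField k K) (F₀ : IntermediateField K₀ F) (x : F)

/-- (N-SCALE) `DSetup.scale`  (G6). -/
theorem dsetup_scale (hA : A ≠ ⊤) (hS : Setup K A F O x)
    (θ : Fin (Module.finrank K⟮x⟯ F) → F)
    (horth : ∀ r : Fin (Module.finrank K⟮x⟯ F) → K⟮x⟯,
      (∑ i, (r i : F) * θ i) ∈ O ↔ ∀ i, (r i : F) ∈ O)
    (hgram : ((gramDet K F x θ : K⟮x⟯) : F)⁻¹ ∈ O)
    (hG : GoodPair x K₀ F₀ θ) :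
    letI := algComap (A.comap (algebraMap K₀ K)) F₀
    ∀ f : F₀, f ≠ 0 → ∃ a b : ↥(A.comap (algebraMap K₀ K)), a ≠ 0 ∧ b ≠ 0 ∧
      algebraMap ↥(A.comap (algebraMap K₀ K)) F₀ a / algebraMap ↥(A.comap (algebraMap K₀ K)) F₀ b * f
        ∈ O.comap (algebraMap F₀ F) ∧
      (algebraMap ↥(A.comap (algebraMap K₀ K)) F₀ a /
        algebraMap ↥(A.comap (algebraMap K₀ K)) F₀ b * f)⁻¹ ∈ O.comap (algebraMap F₀ F) := by
  show ∀ f : F₀, f ≠ 0 → ∃ a b : ↥(A.comap (algebraMap K₀ K)), a ≠ 0 ∧ b ≠ 0 ∧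
      algebraMap K₀ F₀ (a : K₀) / algebraMap K₀ F₀ (b : K₀) * f ∈ O.comap (algebraMap F₀ F) ∧
      (algebraMap K₀ F₀ (a : K₀) / algebraMap K₀ F₀ (b : K₀) * f)⁻¹ ∈ O.comap (algebraMap F₀ F)
  intro f hf
  have hf' : (f : F) ≠ 0 := fun h => hf (Subtype.ext h)
  obtain ⟨r, hr⟩ := hG.coord (f : F) f.2
  obtain ⟨P, Q, hQ, hPQ⟩ := exists_common_denom x r
  have hfQ : (f : F) * aeval x Q = ∑ i, aeval x (P i) * θ i := by
    rw [hr, Finset.sum_mul]
    refine Finset.sum_congr rfl fun i _ => ?_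
    rw [← hPQ i]
    ring
  have horth' : ∀ r : Fin (Module.finrank K⟮x⟯ F) → F, (∀ i, r i ∈ K⟮x⟯) →
      ((∑ i, r i * θ i) ∈ O ↔ ∀ i, r i ∈ O) := fun r hr => horth fun i => ⟨r i, hr i⟩
  obtain ⟨c, hc0, hc1, hc2⟩ := exists_scale_of_coord A O x θ hS.gauss hS.scale horth'
    (f : F) hf' P Q hQ hfQ
  have key : ∀ a b : K₀, algebraMap F₀ F (algebraMap K₀ F₀ a / algebraMap K₀ F₀ b * f) =
      algebraMap K₀ F (a / b) * (f : F) := by
    intro a b
    rw [map_mul, map_div₀, map_div₀, ← IsScalarTower.algebraMap_apply,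
      ← IsScalarTower.algebraMap_apply]
    rfl
  rcases A.mem_or_inv_mem (algebraMap K₀ K c) with h | h
  · refine ⟨⟨c, h⟩, 1, fun h0 => hc0 (congrArg Subtype.val h0), one_ne_zero, ?_, ?_⟩
    · rw [ValuationSubring.mem_comap, key]
      simpa using hc1
    · rw [ValuationSubring.mem_comap, map_inv₀, key]
      simpa using hc2
  · have h' : c⁻¹ ∈ A.comap (algebraMap K₀ K) := by
      rw [ValuationSubring.mem_comap, map_inv₀]; exact h
    refine ⟨1, ⟨c⁻¹, h'⟩, one_ne_zero,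
      fun h0 => inv_ne_zero hc0 (congrArg Subtype.val h0), ?_, ?_⟩
    · rw [ValuationSubring.mem_comap, key]
      simpa using hc1
    · rw [ValuationSubring.mem_comap, map_inv₀, key]
      simpa using hc2

end Leaves

end Fermat.Agent.S18.H67
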