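/-
S18 / Program J, core 2, leaf K2-N (helper67): the leaf N-CONST (`dsetup_const`, G8) of helper8's
sub-skeleton of `exists_descent`, VERBATIM, from the core `exists_const_of_coord` of
`DescCore.lean`.
-/
import Mathlib
import Fermat.Agent.S18.H74.Setup
import Fermat.Agent.S18.H19.Core2Defs
import Fermat.Agent.S18.H8.DescentDefs
import Fermat.Agent.S18.H67.DescCore
import Fermat.Agent.S18.H67.DescScale

set_option autoImplicit false

open AlgebraicCurve IntermediateField Polynomial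

noncomputable section

namespace Fermat.Agent.S18.H67

open Fermat.Agent.S18.H74 Fermat.Agent.S18.H19 Fermat.Agent.S18.H8

section Leaves

variable {k K : Type*} [Field k] [Field K] [Algebra k K]
  (A : ValuationSubring K) {F : Type*} [Field F] [Algebra K F] (O : ValuationSubring F)
  (K₀ : IntermediateField k K) (F₀ : IntermediateField K₀ F) (x : F)

/-- (N-CONST) `DSetup.const`  (G8). -/
theorem dsetup_const [IsAlgClosed K] (hA : A ≠ ⊤) (hS : Setup K A F O x)
    (θ : Fin (Module.finrank K⟮x⟯ F) → F)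
    (horth : ∀ r : Fin (Module.finrank K⟮x⟯ F) → K⟮x⟯,
      (∑ i, (r i : F) * θ i) ∈ O ↔ ∀ i, (r i : F) ∈ O)
    (hgram : ((gramDet K F x θ : K⟮x⟯) : F)⁻¹ ∈ O)
    (hG : GoodPair x K₀ F₀ θ) :
    letI := algComap (A.comap (algebraMap K₀ K)) F₀
    ∀ γ ∈ O.comap (algebraMap F₀ F),
      (∃ P : (↥(A.comap (algebraMap K₀ K)))[X], P.Monic ∧
        aeval γ P ∈ (O.comap (algebraMap F₀ F)).nonunits) →
      ∃ a : ↥(A.comap (algebraMap K₀ K)),
        γ - algebraMap ↥(A.comap (algebraMap K₀ K)) F₀ a ∈ (O.comap (algebraMap F₀ F)).nonunits := by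
  letI := algComap (A.comap (algebraMap K₀ K)) F₀
  show ∀ γ ∈ O.comap (algebraMap F₀ F),
      (∃ P : (↥(A.comap (algebraMap K₀ K)))[X], P.Monic ∧
        aeval γ P ∈ (O.comap (algebraMap F₀ F)).nonunits) →
      ∃ a : ↥(A.comap (algebraMap K₀ K)),
        γ - algebraMap K₀ F₀ (a : K₀) ∈ (O.comap (algebraMap F₀ F)).nonunits
  rintro γ hγ ⟨P, hPm, hγP⟩
  have hγ' : (γ : F) ∈ O := hγ
  -- the polynomial over `K`
  set φ : ↥(A.comap (algebraMap K₀ K)) →+* K :=
    (algebraMap K₀ K).comp (A.comap (algebraMap K₀ K)).subtype with hφ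
  have hPmK : (P.map φ).Monic := hPm.map φ
  have hcoef : ∀ i, (P.map φ).coeff i ∈ A := by
    intro i
    rw [coeff_map]
    exact (P.coeff i).2
  have hev : aeval (γ : F) (P.map φ) = algebraMap F₀ F (aeval γ P) := by
    rw [aeval_def, eval₂_map, aeval_def, hom_eval₂]
    rfl
  have hγP' : aeval (γ : F) (P.map φ) ∈ O.nonunits := by
    rw [hev]
    exact (mem_nonunits_comap_iff _ O _).mp hγP
  -- coordinates of `γ` and of `1`
  obtain ⟨r, hr⟩ := hG.coord (γ : F) γ.2
  obtain ⟨N, Q, hQ, hNQ⟩ := exists_common_denom x r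
  have hγQ : (γ : F) * aeval x Q = ∑ i, aeval x (N i) * θ i := by
    rw [hr, Finset.sum_mul]
    refine Finset.sum_congr rfl fun i _ => ?_
    rw [← hNQ i]
    ring
  obtain ⟨e, he⟩ := hG.coord (1 : F) F₀.one_mem
  obtain ⟨E, Q', hQ', hEQ⟩ := exists_common_denom x e
  have h1Q : aeval x Q' = ∑ i, aeval x (E i) * θ i := by
    conv_lhs => rw [← one_mul (aeval x Q'), he, Finset.sum_mul]
    refine Finset.sum_congr rfl fun i _ => ?_
    rw [← hEQ i]
    ring
  have horth' : ∀ r : Fin (Module.finrank K⟮x⟯ F) → F, (∀ i, r i ∈ K⟮x⟯) →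
      ((∑ i, r i * θ i) ∈ O ↔ ∀ i, r i ∈ O) := fun r hr => horth fun i => ⟨r i, hr i⟩
  obtain ⟨a', ha'A, ha'⟩ := exists_const_of_coord A O x θ hA hS.mem_iff hS.gauss hS.scale horth'
    (γ : F) hγ' (P.map φ) hPmK hcoef hγP' N Q hQ hγQ E Q' hQ' h1Q
  refine ⟨⟨a', ha'A⟩, ?_⟩
  rw [mem_nonunits_comap_iff, map_sub, ← IsScalarTower.algebraMap_apply]
  exact ha'

end Leaves

end Fermat.Agent.S18.H67
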