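/-
S18 / Program J, core 2, leaf K2-N (helper67): the leaf N-CONST0 (`dsetup_const₀`, G7) of helper8's
sub-skeleton of `exists_descent`, VERBATIM (independent backup copy), from the cores of
`DescCore.lean`.
-/
import Mathlib
import Fermat.Agent.S18.H74.Setup
import Fermat.Agent.S18.H19.Core2Defs
import Fermat.Agent.S18.H8.DescentDefs
import Fermat.Agent.S18.H67.DescCore
import Fermat.Agent.S18.H67.DescScale

set_option autoImplicit false

open AlgebraicCurve IntermediateField Polynomial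

noncomputable section

namespace Fermat.Agent.S18.H67

open Fermat.Agent.S18.H74 Fermat.Agent.S18.H19 Fermat.Agent.S18.H8

section Core

variable {K : Type*} [Field K] (A : ValuationSubring K) {F : Type*} [Field F] [Algebra K F]
  (O : ValuationSubring F) (x : F) {ι : Type*} [Fintype ι] (θ : ι → F)

/-- **G7, core** (`K₀` is algebraically closed in `F₀`, and `A ∩ K₀` is integrally closed in
`F₀`).  If `y ∈ F` is integral over `A` and the `θ`-coordinates of `y` and of `1` are quotients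
of polynomials in `x` with coefficients in a subfield `K₀` of `K`, then `y ∈ A ∩ K₀`. -/
theorem exists_const_zero_of_coord [IsAlgClosed K]
    {K₀ : Type*} [Field K₀] [Algebra K₀ K] [Algebra K₀ F] [IsScalarTower K₀ K F]
    (hA : A ≠ ⊤) (hmem : ∀ a : K, algebraMap K F a ∈ O ↔ a ∈ A)
    (hgauss : ∀ p : K[X], (∀ i, p.coeff i ∈ A) → (∃ i, p.coeff i ≠ 0 ∧ (p.coeff i)⁻¹ ∈ A) →
      aeval x p ∈ O ∧ (aeval x p)⁻¹ ∈ O)
    (horth : ∀ r : ι → F, (∀ i, r i ∈ K⟮x⟯) → ((∑ i, r i * θ i) ∈ O ↔ ∀ i, r i ∈ O))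
    (y : F) (Pm : K[X]) (hPm : Pm.Monic) (hPmA : ∀ i, Pm.coeff i ∈ A)
    (hy : aeval y Pm = 0)
    (N : ι → K₀[X]) (Q : K₀[X]) (hQ : aeval x Q ≠ 0)
    (hyc : y * aeval x Q = ∑ i, aeval x (N i) * θ i)
    (E : ι → K₀[X]) (Q' : K₀[X]) (hQ' : aeval x Q' ≠ 0)
    (h1c : aeval x Q' = ∑ i, aeval x (E i) * θ i) :
    ∃ a' : K₀, algebraMap K₀ K a' ∈ A ∧ y = algebraMap K₀ F a' := by
  -- `y` is a root of `Pm` in `K`
  obtain ⟨c, hcA, hyc'⟩ : ∃ c ∈ A, y = algebraMap K F c := by
    have heq := (IsAlgClosed.splits Pm).eq_prod_roots_of_monic hPm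
    have h1 : aeval y Pm = (Pm.roots.map (fun a => y - algebraMap K F a)).prod := by
      conv_lhs => rw [heq]
      rw [map_multiset_prod, Multiset.map_map]
      congr 1
      apply Multiset.map_congr rfl
      intro a _
      simp
    rw [h1, Multiset.prod_eq_zero_iff] at hy
    obtain ⟨a, ha, ha0⟩ := Multiset.mem_map.mp hy
    exact ⟨a, root_mem_of_monic A Pm hPm hPmA a (isRoot_of_mem_roots ha), sub_eq_zero.mp ha0⟩
  set p : ι → K[X] := fun i =>
    (N i * Q').map (algebraMap K₀ K) - C c * (E i * Q).map (algebraMap K₀ K) with hp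
  have hid : ∑ i, aeval x (p i) * θ i = 0 := by
    have h3 : ∑ i, aeval x (p i) * θ i =
        aeval x Q' * (∑ i, aeval x (N i) * θ i) -
          algebraMap K F c * aeval x Q * (∑ i, aeval x (E i) * θ i) := by
      rw [Finset.mul_sum, Finset.mul_sum, ← Finset.sum_sub_distrib]
      apply Finset.sum_congr rfl
      intro i _
      simp only [hp, map_sub, map_mul, aeval_C, aeval_map_algebraMap]
      ring
    rw [h3, ← hyc, ← h1c, hyc']
    ring
  have hp0 : ∀ i, p i = 0 := by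
    intro i
    by_contra hne
    exact aeval_ne_zero_of_gauss A O x hA hmem hgauss (p i) hne
      (orth_eq_zero A O x θ hA hmem horth (fun i => aeval x (p i))
        (fun i => aeval_mem_adjoin_simple (K₀ := K) x (p i)) hid i)
  obtain ⟨i₁, hi₁⟩ : ∃ i, aeval x (E i) ≠ 0 := by
    by_contra hcon
    apply hQ'
    rw [h1c]
    exact Finset.sum_eq_zero fun i _ => by
      rw [not_exists] at hcon
      rw [not_not.mp (hcon i), zero_mul]
  have hEQ : E i₁ * Q ≠ 0 := by
    intro h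
    have : aeval x (E i₁ * Q) = 0 := by rw [h, map_zero]
    rw [map_mul] at this
    exact mul_ne_zero hi₁ hQ this
  have hlc : (E i₁ * Q).coeff (E i₁ * Q).natDegree ≠ 0 := by
    rw [coeff_natDegree]
    exact leadingCoeff_ne_zero.mpr hEQ
  have hcoef := congrArg (fun q : K[X] => q.coeff (E i₁ * Q).natDegree) (hp0 i₁)
  simp only [hp, coeff_sub, coeff_map, coeff_C_mul, coeff_zero] at hcoef
  have he : algebraMap K₀ K ((E i₁ * Q).coeff (E i₁ * Q).natDegree) ≠ 0 := by
    simpa using hlc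
  have hc : c = algebraMap K₀ K
      ((N i₁ * Q').coeff (E i₁ * Q).natDegree / (E i₁ * Q).coeff (E i₁ * Q).natDegree) := by
    rw [map_div₀, eq_div_iff he]
    exact (sub_eq_zero.mp hcoef).symm
  refine ⟨_, hc ▸ hcA, ?_⟩
  rw [hyc', IsScalarTower.algebraMap_apply K₀ K F, ← hc]

end Core

section Leaves

variable {k K : Type*} [Field k] [Field K] [Algebra k K]
  (A : ValuationSubring K) {F : Type*} [Field F] [Algebra K F] (O : ValuationSubring F)
  (K₀ : IntermediateField k K) (F₀ : IntermediateField K₀ F) (x : F)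

/-- (N-CONST0) `DSetup.const₀`  (G7). -/
theorem dsetup_const₀ [IsAlgClosed K] (hA : A ≠ ⊤) (hx : Transcendental K x)
    (hS : Setup K A F O x)
    (θ : Fin (Module.finrank K⟮x⟯ F) → F)
    (horth : ∀ r : Fin (Module.finrank K⟮x⟯ F) → K⟮x⟯,
      (∑ i, (r i : F) * θ i) ∈ O ↔ ∀ i, (r i : F) ∈ O)
    (hgram : ((gramDet K F x θ : K⟮x⟯) : F)⁻¹ ∈ O)
    (hG : GoodPair x K₀ F₀ θ) :
    letI := algComap (A.comap (algebraMap K₀ K)) F₀
    ∀ y : F₀, IsIntegral ↥(A.comap (algebraMap K₀ K)) y →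
      ∃ a : ↥(A.comap (algebraMap K₀ K)), y = algebraMap ↥(A.comap (algebraMap K₀ K)) F₀ a := by
  letI := algComap (A.comap (algebraMap K₀ K)) F₀
  show ∀ y : F₀, IsIntegral ↥(A.comap (algebraMap K₀ K)) y →
      ∃ a : ↥(A.comap (algebraMap K₀ K)), y = algebraMap K₀ F₀ (a : K₀)
  rintro y ⟨P, hPm, hP0⟩
  set φ : ↥(A.comap (algebraMap K₀ K)) →+* K :=
    (algebraMap K₀ K).comp (A.comap (algebraMap K₀ K)).subtype with hφ
  have hPmK : (P.map φ).Monic := hPm.map φ
  have hcoef : ∀ i, (P.map φ).coeff i ∈ A := by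
    intro i
    rw [coeff_map]
    exact (P.coeff i).2
  have hev : aeval (y : F) (P.map φ) = 0 := by
    have h1 : aeval (y : F) (P.map φ) =
        algebraMap F₀ F (eval₂ (algebraMap ↥(A.comap (algebraMap K₀ K)) F₀) y P) := by
      rw [aeval_def, eval₂_map, hom_eval₂]
      rfl
    rw [h1, hP0, map_zero]
  obtain ⟨r, hr⟩ := hG.coord (y : F) y.2
  obtain ⟨N, Q, hQ, hNQ⟩ := exists_common_denom x r
  have hyQ : (y : F) * aeval x Q = ∑ i, aeval x (N i) * θ i := by
    rw [hr, Finset.sum_mul]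
    refine Finset.sum_congr rfl fun i _ => ?_
    rw [← hNQ i]
    ring
  obtain ⟨e, he⟩ := hG.coord (1 : F) F₀.one_mem
  obtain ⟨E, Q', hQ', hEQ⟩ := exists_common_denom x e
  have h1Q : aeval x Q' = ∑ i, aeval x (E i) * θ i := by
    conv_lhs => rw [← one_mul (aeval x Q'), he, Finset.sum_mul]
    refine Finset.sum_congr rfl fun i _ => ?_
    rw [← hEQ i]
    ring
  have horth' : ∀ r : Fin (Module.finrank K⟮x⟯ F) → F, (∀ i, r i ∈ K⟮x⟯) →
      ((∑ i, r i * θ i) ∈ O ↔ ∀ i, r i ∈ O) := fun r hr => horth fun i => ⟨r i, hr i⟩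
  obtain ⟨a', ha'A, ha'⟩ := exists_const_zero_of_coord A O x θ hA hS.mem_iff hS.gauss horth'
    (y : F) (P.map φ) hPmK hcoef hev N Q hQ hyQ E Q' hQ' h1Q
  refine ⟨⟨a', ha'A⟩, Subtype.ext ?_⟩
  rw [ha']
  rfl

end Leaves

end Fermat.Agent.S18.H67
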