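import Mathlib

/-!
# A determinant divisibility lemma

For a commutative ring `R` and an element `ϖ` generating a maximal ideal, the determinant of a
square matrix `M` over `R` is divisible by `ϖ ^ (n - rank (M mod ϖ))`.
-/

namespace Fermat.Agent.S18.H67

open Matrix

section

variable {R : Type*} [CommRing R] {n : Type*} [Fintype n] [DecidableEq n]

omit [Fintype n] in
theorem map_transvection_eq {S : Type*} [CommRing S] (f : R →+* S) (i j : n) (c : R) :
    (transvection i j c).map f = transvection i j (f c) := by
  ext a b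
  simp only [transvection, Matrix.map_apply, Matrix.add_apply, Matrix.one_apply,
    Matrix.single_apply]
  by_cases h1 : a = b <;> by_cases h2 : i = a ∧ j = b <;> simp [h1, h2, apply_ite f]

/-- Products of transvections over a quotient lift to matrices of determinant one. -/
theorem exists_lift_transvec_prod {S : Type*} [CommRing S] (f : R →+* S)
    (hf : Function.Surjective f) (L : List (TransvectionStruct n S)) :
    ∃ P : Matrix n n R, P.det = 1 ∧ P.map f = (L.map TransvectionStruct.toMatrix).prod := by
  induction L with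
  | nil => exact ⟨1, by simp, by simp⟩
  | cons t L ih =>
    obtain ⟨P, hP1, hP2⟩ := ih
    obtain ⟨c, hc⟩ := hf t.c
    refine ⟨transvection t.i t.j c * P, ?_, ?_⟩
    · rw [det_mul, det_transvection_of_ne _ _ t.hij, hP1, one_mul]
    · rw [Matrix.map_mul, map_transvection_eq, hc, hP2]
      simp [TransvectionStruct.toMatrix]

/-- If all entries of the rows `i ∈ Z` of `N` are divisible by `ϖ`, then `ϖ ^ #Z ∣ det N`. -/
theorem pow_card_dvd_det_of_rows (ϖ : R) (N : Matrix n n R) (Z : Finset n)
    (h : ∀ i ∈ Z, ∀ j, ϖ ∣ N i j) : ϖ ^ Z.card ∣ N.det := by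
  classical
  choose! N' hN' using h
  obtain ⟨N'', key⟩ : ∃ N'' : Matrix n n R,
      N = of fun i j => (if i ∈ Z then ϖ else 1) * N'' i j := by
    refine ⟨of fun i j => if i ∈ Z then N' i j else N i j, ?_⟩
    ext i j
    by_cases hi : i ∈ Z
    · simp [hi, hN' i hi j]
    · simp [hi]
  rw [key, det_mul_column]
  refine Dvd.dvd.mul_right ?_ _
  rw [Finset.prod_ite, Finset.prod_const, Finset.prod_const_one, mul_one]
  have : Finset.univ.filter (fun i => i ∈ Z) = Z := by ext; simp
  rw [this]

/-- **Rank lemma.** If `ϖ` generates a maximal ideal of `R`, then for every square matrix `M`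
over `R` the determinant of `M` is divisible by `ϖ ^ (n - rank (M mod ϖ))`. -/
theorem pow_dvd_det_of_rank (ϖ : R) [hmax : (Ideal.span {ϖ}).IsMaximal] (M : Matrix n n R) :
    ϖ ^ (Fintype.card n - (M.map (Ideal.Quotient.mk (Ideal.span {ϖ}))).rank) ∣ M.det := by
  classical
  let _ := Ideal.Quotient.field (Ideal.span {ϖ})
  set q := Ideal.Quotient.mk (Ideal.span {ϖ}) with hq
  obtain ⟨L, L', D, hD⟩ :=
    Matrix.Pivot.exists_list_transvec_mul_mul_list_transvec_eq_diagonal (M.map q)
  obtain ⟨P, hP1, hP2⟩ := exists_lift_transvec_prod q Ideal.Quotient.mk_surjective L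
  obtain ⟨Q, hQ1, hQ2⟩ := exists_lift_transvec_prod q Ideal.Quotient.mk_surjective L'
  set N := P * M * Q with hN
  have hNmap : N.map q = diagonal D := by
    rw [hN, Matrix.map_mul, Matrix.map_mul, hP2, hQ2, hD]
  have hdet : N.det = M.det := by
    rw [hN, det_mul, det_mul, hP1, hQ1, one_mul, mul_one]
  have hrank : (M.map q).rank = Fintype.card {i // D i ≠ 0} := by
    rw [← rank_diagonal, ← hD]
    rw [rank_mul_eq_left_of_isUnit_det _ _ (by simp), rank_mul_eq_right_of_isUnit_det _ _ (by simp)]
  set Z : Finset n := Finset.univ.filter (fun i => D i = 0) with hZ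
  have hZcard : Z.card = Fintype.card n - (M.map q).rank := by
    rw [hrank, Fintype.card_subtype, hZ]
    have := Finset.card_filter_add_card_filter_not (s := (Finset.univ : Finset n))
      (fun i => D i = 0)
    simp only [Finset.card_univ] at this
    have h2 : (Finset.univ.filter (fun i => D i ≠ 0)).card =
        (Finset.univ.filter (fun i => ¬ D i = 0)).card := rfl
    omega
  rw [← hZcard, ← hdet]
  refine pow_card_dvd_det_of_rows ϖ N Z ?_
  intro i hi j
  have hDi : D i = 0 := by simpa [hZ] using hi
  have h1 : q (N i j) = 0 := by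
    have := congrFun (congrFun hNmap i) j
    rw [Matrix.map_apply] at this
    rw [this, diagonal_apply]
    split_ifs with hij
    · exact hDi
    · rfl
  rw [hq, Ideal.Quotient.eq_zero_iff_mem, Ideal.mem_span_singleton] at h1
  exact h1

end

end Fermat.Agent.S18.H67
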