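import Mathlib

/-!
# The different in residue characteristic zero

If `p B = P * Q` with `P`, `Q` coprime, `P ≠ ⊤`, and the residue field `A ⧸ p` has
characteristic zero, then `P` does not divide the different ideal.  Applied to `P = 𝔓 ^ e`
this is the tame bound `v_𝔓(Diff) ≤ e - 1`.
-/

namespace Fermat.Agent.S18.H67

open Module nonZeroDivisors

attribute [local instance] FractionRing.liftAlgebra FractionRing.isScalarTower_liftAlgebra
  Ideal.Quotient.field

variable {A B : Type*} [CommRing A] [CommRing B] [Algebra A B]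
  [IsDedekindDomain A] [IsDedekindDomain B] [IsTorsionFree A B] [Module.Finite A B]

theorem not_dvd_differentIdeal_of_isCoprime_of_charZero
    [Algebra.IsSeparable (FractionRing A) (FractionRing B)]
    {p : Ideal A} [p.IsMaximal] [CharZero (A ⧸ p)] (P Q : Ideal B) (hPtop : P ≠ ⊤)
    (hPQ : IsCoprime P Q) (hP : P * Q = Ideal.map (algebraMap A B) p) :
    ¬ P ∣ differentIdeal A B := by
  let _ : Algebra (A ⧸ p) (B ⧸ P) := Ideal.Quotient.algebraQuotientOfLEComap (by
      rw [← Ideal.map_le_iff_le_comap, ← hP]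
      exact Ideal.mul_le_left)
  let _ : Algebra (A ⧸ p) (B ⧸ Q) := Ideal.Quotient.algebraQuotientOfLEComap (by
      rw [← Ideal.map_le_iff_le_comap, ← hP]
      exact Ideal.mul_le_right)
  have : IsScalarTower A (A ⧸ p) (B ⧸ P) := .of_algebraMap_eq' rfl
  have : IsScalarTower A (A ⧸ p) (B ⧸ Q) := .of_algebraMap_eq' rfl
  have : Module.Finite (A ⧸ p) (B ⧸ P) :=
    Module.Finite.of_restrictScalars_finite A (A ⧸ p) (B ⧸ P)
  have : Module.Finite (A ⧸ p) (B ⧸ Q) :=
    Module.Finite.of_restrictScalars_finite A (A ⧸ p) (B ⧸ Q)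
  have : Nontrivial (B ⧸ P) := Ideal.Quotient.nontrivial_iff.mpr hPtop
  let e : (B ⧸ p.map (algebraMap A B)) ≃ₐ[A ⧸ p] ((B ⧸ P) × B ⧸ Q) :=
    { __ := (Ideal.quotEquivOfEq hP.symm).trans (Ideal.quotientMulEquivQuotientProd P Q hPQ),
      commutes' := Quotient.ind fun _ ↦ rfl }
  have hx : Algebra.trace (A ⧸ p) (B ⧸ P) 1 ≠ 0 := by
    have h1 : (1 : B ⧸ P) = algebraMap (A ⧸ p) (B ⧸ P) 1 := by rw [map_one]
    rw [h1, Algebra.trace_algebraMap, nsmul_eq_mul, mul_one, Nat.cast_ne_zero]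
    exact (Module.finrank_pos).ne'
  obtain ⟨y, hy⟩ := Ideal.Quotient.mk_surjective (e.symm (1, 0))
  refine not_dvd_differentIdeal_of_intTrace_not_mem A P Q hP y ?_ ?_
  · have := congr((e $hy).2)
    simp at this
    simpa [e, Ideal.Quotient.eq_zero_iff_mem] using this
  · rw [← Ideal.Quotient.eq_zero_iff_mem, ← Algebra.trace_quotient_eq_of_isDedekindDomain,
      hy, Algebra.trace_eq_of_algEquiv, Algebra.trace_prod_apply]
    simpa using hx

end Fermat.Agent.S18.H67

namespace Fermat.Agent.S18.H67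

open Module nonZeroDivisors

/-- A unique-factorisation lemma: if `I ^ 2 ∣ Y * D` and no exact prime power of `I` divides `D`,
then `I ∣ Y`. -/
theorem dvd_of_sq_dvd_mul_of_not_pow_dvd {M : Type*} [CommMonoidWithZero M]
    [UniqueFactorizationMonoid M] {I Y D : M} (hI : I ≠ 0) (hD0 : D ≠ 0) (h : I ^ 2 ∣ Y * D)
    (hD : ∀ P : M, Prime P → ∀ e : ℕ, e ≠ 0 → P ^ e ∣ I → ¬ P ^ (e + 1) ∣ I → ¬ P ^ e ∣ D) :
    I ∣ Y := by
  by_cases hY : Y = 0
  · rw [hY]; exact dvd_zero _
  rw [UniqueFactorizationMonoid.dvd_iff_emultiplicity_le hI]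
  intro P hP
  have hfinI : FiniteMultiplicity P I := FiniteMultiplicity.of_not_isUnit hP.not_isUnit hI
  have hfinY : FiniteMultiplicity P Y := FiniteMultiplicity.of_not_isUnit hP.not_isUnit hY
  have hfinD : FiniteMultiplicity P D := FiniteMultiplicity.of_not_isUnit hP.not_isUnit hD0
  rw [hfinI.emultiplicity_eq_multiplicity, hfinY.emultiplicity_eq_multiplicity]
  set e := multiplicity P I with he
  set a := multiplicity P Y with ha
  set b := multiplicity P D with hb
  norm_cast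
  by_contra hlt
  rw [not_le] at hlt
  have he0 : e ≠ 0 := by omega
  have h1 : P ^ e ∣ I := pow_multiplicity_dvd P I
  have h2 : ¬ P ^ (e + 1) ∣ I := hfinI.not_pow_dvd_of_multiplicity_lt (by omega)
  have h3 : ¬ P ^ e ∣ D := hD P hP e he0 h1 h2
  have hbe : b < e := by
    by_contra hbe
    rw [not_lt] at hbe
    exact h3 ((pow_dvd_pow P hbe).trans (pow_multiplicity_dvd P D))
  have h4 : P ^ (a + b + 1) ∣ Y * D := by
    have h5 : P ^ (2 * e) ∣ Y * D := by
      refine Dvd.dvd.trans ?_ h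
      rw [mul_comm 2 e, pow_mul]
      exact pow_dvd_pow_of_dvd h1 2
    exact (pow_dvd_pow P (by omega)).trans h5
  rcases succ_dvd_or_succ_dvd_of_succ_sum_dvd_mul hP (pow_multiplicity_dvd P Y)
    (pow_multiplicity_dvd P D) h4 with h6 | h6
  · exact hfinY.not_pow_dvd_of_multiplicity_lt (by omega) h6
  · exact hfinD.not_pow_dvd_of_multiplicity_lt (by omega) h6

attribute [local instance] FractionRing.liftAlgebra FractionRing.isScalarTower_liftAlgebra
  Ideal.Quotient.field

variable {A B : Type*} [CommRing A] [CommRing B] [Algebra A B]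
  [IsDedekindDomain A] [IsDedekindDomain B] [IsTorsionFree A B] [Module.Finite A B]

/-- If all traces `Tr (y z)` are divisible by `ϖ ^ k`, then `y * δ` is divisible by `ϖ ^ k`
for every `δ` in the different. -/
theorem pow_dvd_mul_of_mem_differentIdeal
    [Algebra.IsSeparable (FractionRing A) (FractionRing B)]
    (ϖ : A) (hϖ : ϖ ≠ 0) (k : ℕ)
    (y : B) (h : ∀ z : B, ϖ ^ k ∣ Algebra.intTrace A B (y * z))
    (δ : B) (hδ : δ ∈ differentIdeal A B) : algebraMap A B (ϖ ^ k) ∣ y * δ := by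
  let K := FractionRing A
  let L := FractionRing B
  have : IsLocalization (Algebra.algebraMapSubmonoid B A⁰) L :=
    IsIntegralClosure.isLocalization _ K _ _
  have : FiniteDimensional K L := .of_isLocalization A B A⁰
  have hc : algebraMap A K (ϖ ^ k) ≠ 0 := by
    rw [Ne, map_eq_zero_iff _ (IsFractionRing.injective A K)]
    exact pow_ne_zero k hϖ
  set z : L := (algebraMap A K (ϖ ^ k))⁻¹ • algebraMap B L y with hz
  have hne : (1 : FractionalIdeal B⁰ L) ≠ 0 := one_ne_zero
  have hzdual : z ∈ FractionalIdeal.dual A K (1 : FractionalIdeal B⁰ L) := by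
    rw [FractionalIdeal.mem_dual hne]
    intro a ha
    obtain ⟨b, rfl⟩ := (FractionalIdeal.mem_one_iff _).1 ha
    obtain ⟨t, ht⟩ := h b
    refine ⟨t, ?_⟩
    rw [Algebra.traceForm_apply, hz, smul_mul_assoc, map_smul, ← map_mul,
      ← Algebra.algebraMap_intTrace (A := A), ht, map_mul, smul_eq_mul, inv_mul_cancel_left₀ hc]
  have hδ' : algebraMap B L δ ∈ (FractionalIdeal.dual A K (1 : FractionalIdeal B⁰ L))⁻¹ := by
    rw [← coeIdeal_differentIdeal A K L B]
    exact FractionalIdeal.mem_coeIdeal_of_mem _ hδ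
  rw [FractionalIdeal.mem_inv_iff (FractionalIdeal.dual_ne_zero A K hne)] at hδ'
  obtain ⟨w, hw⟩ := (FractionalIdeal.mem_one_iff _).1 (hδ' z hzdual)
  refine ⟨w, ?_⟩
  apply IsFractionRing.injective B L
  have hcL : algebraMap B L (algebraMap A B (ϖ ^ k)) = algebraMap K L (algebraMap A K (ϖ ^ k)) := by
    rw [← IsScalarTower.algebraMap_apply, ← IsScalarTower.algebraMap_apply]
  rw [map_mul, map_mul, hw, hz, hcL, Algebra.smul_def, map_inv₀]
  have hc' : algebraMap K L (algebraMap A K (ϖ ^ k)) ≠ 0 := by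
    rw [Ne, map_eq_zero]; exact hc
  rw [mul_left_comm, mul_inv_cancel_left₀ hc', mul_comm]

/-- **(T2)** In residue characteristic zero: if all traces `Tr (y z)`, `z ∈ B`, are divisible by
`ϖ ^ 2`, then `y` is divisible by `ϖ`. -/
theorem dvd_of_forall_sq_dvd_intTrace
    [Algebra.IsSeparable (FractionRing A) (FractionRing B)]
    (ϖ : A) (hϖ : Prime ϖ) [CharZero (A ⧸ Ideal.span {ϖ})]
    (y : B) (h : ∀ z : B, ϖ ^ 2 ∣ Algebra.intTrace A B (y * z)) :
    algebraMap A B ϖ ∣ y := by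
  have hinj : Function.Injective (algebraMap A B) := FaithfulSMul.algebraMap_injective A B
  set ϖ' := algebraMap A B ϖ with hϖ'
  have hϖ'0 : ϖ' ≠ 0 := by
    rw [hϖ', Ne, map_eq_zero_iff _ hinj]; exact hϖ.ne_zero
  have hpprime : (Ideal.span {ϖ}).IsPrime := (Ideal.span_singleton_prime hϖ.ne_zero).2 hϖ
  have hpmax : (Ideal.span {ϖ}).IsMaximal :=
    hpprime.isMaximal (by simpa using hϖ.ne_zero)
  have hmap : Ideal.map (algebraMap A B) (Ideal.span {ϖ}) = Ideal.span {ϖ'} := by
    rw [Ideal.map_span, Set.image_singleton]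
  have hI0 : (Ideal.span {ϖ'} : Ideal B) ≠ 0 := by
    rw [Ideal.zero_eq_bot, Ne, Ideal.span_singleton_eq_bot]; exact hϖ'0
  have hkey : (Ideal.span {ϖ'} : Ideal B) ^ 2 ∣ Ideal.span {y} * differentIdeal A B := by
    rw [Ideal.dvd_iff_le, Ideal.span_singleton_mul_le_iff, Ideal.span_singleton_pow]
    intro δ hδ
    rw [Ideal.mem_span_singleton, hϖ', ← map_pow]
    exact pow_dvd_mul_of_mem_differentIdeal ϖ hϖ.ne_zero 2 y h δ hδ
  have hdvd : (Ideal.span {ϖ'} : Ideal B) ∣ Ideal.span {y} := by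
    refine dvd_of_sq_dvd_mul_of_not_pow_dvd hI0 differentIdeal_ne_bot hkey ?_
    intro P hP e he0 h1 h2
    obtain ⟨Q, hQ⟩ := h1
    have hP0 : P ≠ ⊥ := hP.ne_zero
    have hPprime : P.IsPrime := (Ideal.prime_iff_isPrime hP0).1 hP
    have hPmax : P.IsMaximal := hPprime.isMaximal hP0
    have hPQ : ¬ P ∣ Q := by
      rintro ⟨Q', rfl⟩
      apply h2
      rw [hQ, pow_succ]
      exact mul_dvd_mul_left _ (Dvd.intro _ rfl)
    have hcop : IsCoprime P Q := by
      rw [Ideal.isCoprime_iff_sup_eq]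
      by_contra hne
      have hle : P ⊔ Q ≤ P := (hPmax.eq_of_le hne le_sup_left).ge
      exact hPQ (Ideal.dvd_iff_le.2 (le_sup_right.trans hle))
    have hPe : P ^ e ≠ ⊤ := by
      intro htop
      have : P ^ e ≤ P := Ideal.pow_le_self he0
      exact hPprime.ne_top (top_le_iff.1 (htop ▸ this))
    exact not_dvd_differentIdeal_of_isCoprime_of_charZero (p := Ideal.span {ϖ}) (P ^ e) Q hPe
      hcop.pow_left (by rw [hmap, hQ])
  rw [Ideal.dvd_iff_le, Ideal.span_singleton_le_span_singleton] at hdvd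
  exact hdvd

end Fermat.Agent.S18.H67
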