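import Mathlib

/-!
# The radical of the trace form in characteristic zero

For a finite-dimensional commutative algebra `R` over a field `κ` of characteristic zero, an
element `x` with `Tr (x * y) = 0` for all `y` is nilpotent.
-/

namespace Fermat.Agent.S18.H67

open Polynomial

/-- In a finite-dimensional commutative algebra over a field of characteristic zero, an
idempotent with vanishing trace is zero. -/
theorem eq_zero_of_isIdempotentElem_of_trace_eq_zero {κ R : Type*} [Field κ] [CharZero κ]
    [CommRing R] [Algebra κ R] [FiniteDimensional κ R] (e : R) (he : IsIdempotentElem e)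
    (ht : Algebra.trace κ R e = 0) : e = 0 := by
  have he' : IsIdempotentElem (Algebra.lmul κ R e) := by
    have := congrArg (Algebra.lmul κ R) he.eq
    rwa [map_mul] at this
  have h0 : Algebra.lmul κ R e = 0 :=
    (LinearMap.IsIdempotentElem.trace_eq_zero_iff he').1 (by rwa [Algebra.trace_apply] at ht)
  have := congrArg (fun f : R →ₗ[κ] R => f 1) h0
  simpa using this

/-- **Radical of the trace form.** In a finite-dimensional commutative algebra over a field of
characteristic zero, an element orthogonal to everything for the trace form is nilpotent. -/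
theorem isNilpotent_of_forall_trace_mul_eq_zero {κ R : Type*} [Field κ] [CharZero κ]
    [CommRing R] [Algebra κ R] [FiniteDimensional κ R] (x : R)
    (h : ∀ y : R, Algebra.trace κ R (x * y) = 0) : IsNilpotent x := by
  have hint : IsIntegral κ x := Algebra.IsIntegral.isIntegral x
  set μ := minpoly κ x with hμ
  have hμ0 : μ ≠ 0 := minpoly.ne_zero hint
  have hμx : aeval x μ = 0 := minpoly.aeval κ x
  obtain ⟨g, hg, hXg⟩ := exists_eq_pow_rootMultiplicity_mul_and_not_dvd μ hμ0 0
  set a := μ.rootMultiplicity 0 with ha
  simp only [map_zero, sub_zero] at hg hXg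
  have hcop : IsCoprime (X ^ (a + 1) : κ[X]) g :=
    IsCoprime.pow_left ((irreducible_X.coprime_iff_not_dvd).2 hXg)
  obtain ⟨u, v, huv⟩ := hcop
  -- the idempotent `e = (u X^(a+1))(x)`
  set e : R := aeval x (u * X ^ (a + 1)) with he
  have hvg : aeval x (u * X ^ (a + 1)) + aeval x (v * g) = 1 := by
    rw [← map_add, huv, map_one]
  have hprod : aeval x (u * X ^ (a + 1)) * aeval x (v * g) = 0 := by
    rw [← map_mul]
    have : u * X ^ (a + 1) * (v * g) = u * v * X * μ := by rw [hg]; ring
    rw [this, map_mul, hμx, mul_zero]
  have hidem : IsIdempotentElem e := by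
    have h1 : aeval x (v * g) = 1 - e := by rw [he]; linear_combination hvg
    have h2 : e * (1 - e) = 0 := by rw [← h1]; exact hprod
    change e * e = e
    linear_combination -h2
  have htr : Algebra.trace κ R e = 0 := by
    have : e = x * aeval x (u * X ^ a) := by
      rw [he]
      have : u * X ^ (a + 1) = X * (u * X ^ a) := by ring
      rw [this, map_mul, aeval_X]
    rw [this]
    exact h _
  have he0 : e = 0 := eq_zero_of_isIdempotentElem_of_trace_eq_zero e hidem htr
  refine ⟨a, ?_⟩
  have h1 : aeval x (v * g) = 1 := by rw [← hvg, ← he, he0, zero_add]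
  calc x ^ a = x ^ a * aeval x (v * g) := by rw [h1, mul_one]
    _ = aeval x (v * μ) := by
        rw [hg]
        simp only [map_mul, map_pow, aeval_X]
        ring
    _ = 0 := by rw [map_mul, hμx, mul_zero]

end Fermat.Agent.S18.H67
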