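import Fermat.Agent.S18.H67.RankDet
import Fermat.Agent.S18.H67.TraceRadical
import Fermat.Agent.S18.H67.TameDifferent

/-!
# The tame discriminant bound in residue characteristic zero

`A ⊆ B` Dedekind domains, `B` finite torsion-free over `A` with separable fraction field
extension, `b` an `A`-basis of `B`, `ϖ` a prime element of `A` whose residue field has
characteristic zero.  Then the `ϖ`-adic valuation of the discriminant `det (Tr (b i * b j))` is
exactly `n - rank (Tr (b i * b j) mod ϖ)`, and it is at most `n - r` as soon as there are `r`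
elements of `B` that are linearly independent modulo the radical of `ϖ B`.
-/

namespace Fermat.Agent.S18.H67

open Module Matrix nonZeroDivisors

attribute [local instance] FractionRing.liftAlgebra FractionRing.isScalarTower_liftAlgebra
  Ideal.Quotient.field

variable {A B : Type*} [CommRing A] [CommRing B] [Algebra A B]
  [IsDedekindDomain A] [IsDedekindDomain B] [IsTorsionFree A B] [Module.Finite A B]
  {ι : Type*} [Fintype ι] [DecidableEq ι]

/-- The discriminant of a basis is nonzero (separable case). -/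
theorem det_traceMatrix_ne_zero_of_basis
    [Algebra.IsSeparable (FractionRing A) (FractionRing B)] (b : Basis ι A B) :
    (Algebra.traceMatrix A b).det ≠ 0 := by
  let K := FractionRing A
  let L := FractionRing B
  have : IsLocalization (Algebra.algebraMapSubmonoid B A⁰) L :=
    IsIntegralClosure.isLocalization _ K _ _
  have h := Algebra.discr_localizationLocalization A A⁰ L b (Rₘ := K)
  have h2 := Algebra.discr_not_zero_of_basis K (b.localizationLocalization K A⁰ L)
  intro h0
  rw [h, Algebra.discr_def, h0, map_zero] at h2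
  exact h2 rfl

omit [DecidableEq ι] in
/-- All traces `Tr (y z)` are divisible by `d` as soon as the `Tr (y b_i)` are. -/
theorem dvd_intTrace_mul_of_basis (b : Basis ι A B) (d : A) (y : B)
    (h : ∀ i, d ∣ Algebra.trace A B (y * b i)) (z : B) : d ∣ Algebra.intTrace A B (y * z) := by
  have : Module.Free A B := Module.Free.of_basis b
  rw [Algebra.intTrace_eq_trace]
  have hz : z = ∑ i, b.repr z i • b i := (b.sum_repr z).symm
  rw [hz, Finset.mul_sum, map_sum]
  refine Finset.dvd_sum fun i _ => ?_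
  rw [mul_smul_comm, map_smul, smul_eq_mul]
  exact Dvd.dvd.mul_left (h i) _

omit [DecidableEq ι] in
/-- **(T2), coordinate form.** -/
theorem dvd_of_sq_dvd_traceMatrix_mulVec
    [Algebra.IsSeparable (FractionRing A) (FractionRing B)] (b : Basis ι A B)
    (ϖ : A) (hϖ : Prime ϖ) [CharZero (A ⧸ Ideal.span {ϖ})]
    (c : ι → A) (h : ∀ i, ϖ ^ 2 ∣ (Algebra.traceMatrix A b *ᵥ c) i) : ∀ i, ϖ ∣ c i := by
  set y : B := b.equivFun.symm c with hy
  have hc : b.equivFun y = c := b.equivFun.apply_symm_apply c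
  have h1 : ∀ i, ϖ ^ 2 ∣ Algebra.trace A B (y * b i) := by
    intro i
    have := congrFun (Algebra.traceMatrix_of_basis_mulVec b y) i
    rw [hc] at this
    rw [← this]; exact h i
  obtain ⟨y', hy'⟩ := dvd_of_forall_sq_dvd_intTrace ϖ hϖ y
    (dvd_intTrace_mul_of_basis b (ϖ ^ 2) y h1)
  intro i
  refine ⟨b.repr y' i, ?_⟩
  have h3 : c i = b.repr y i := by rw [← hc]; rfl
  rw [h3, hy', ← Algebra.smul_def, map_smul]
  rfl

/-- Iterating (T2): a right quasi-inverse of the trace matrix up to `ϖ ^ (j + 1) * s` is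
divisible by `ϖ ^ j`. -/
theorem exists_eq_pow_smul_of_traceMatrix_mul_eq
    [Algebra.IsSeparable (FractionRing A) (FractionRing B)] (b : Basis ι A B)
    (ϖ : A) (hϖ : Prime ϖ) [CharZero (A ⧸ Ideal.span {ϖ})] (s : A) :
    ∀ (j : ℕ) (H : Matrix ι ι A),
      Algebra.traceMatrix A b * H = (ϖ ^ (j + 1) * s) • (1 : Matrix ι ι A) →
      ∃ M : Matrix ι ι A, H = ϖ ^ j • M ∧
        Algebra.traceMatrix A b * M = (ϖ * s) • (1 : Matrix ι ι A) := by
  intro j
  induction j with
  | zero => intro H hH; exact ⟨H, by simp, by simpa using hH⟩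
  | succ j ih =>
    intro H hH
    have hdiv : ∀ i l, ϖ ∣ H i l := by
      intro i l
      refine dvd_of_sq_dvd_traceMatrix_mulVec b ϖ hϖ (fun i => H i l) ?_ i
      intro i'
      have h1 : (Algebra.traceMatrix A b *ᵥ fun i => H i l) i' =
          (Algebra.traceMatrix A b * H) i' l := by
        simp [Matrix.mul_apply, Matrix.mulVec, dotProduct]
      rw [h1, hH, Matrix.smul_apply, smul_eq_mul]
      exact Dvd.dvd.mul_right (Dvd.dvd.mul_right (pow_dvd_pow ϖ (by omega)) _) _
    choose H' hH' using hdiv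
    have hHeq : H = ϖ • Matrix.of H' := by
      ext i l
      simp [hH' i l]
    have hG' : Algebra.traceMatrix A b * Matrix.of H' =
        (ϖ ^ (j + 1) * s) • (1 : Matrix ι ι A) := by
      have h3 : ϖ • (Algebra.traceMatrix A b * Matrix.of H') =
          ϖ • ((ϖ ^ (j + 1) * s) • (1 : Matrix ι ι A)) := by
        rw [← Matrix.mul_smul, ← hHeq, hH, smul_smul]
        congr 1
        ring
      ext i l
      have := congrFun (congrFun h3 i) l
      simp only [Matrix.smul_apply, smul_eq_mul] at this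
      exact mul_left_cancel₀ hϖ.ne_zero this
    obtain ⟨M, hM1, hM2⟩ := ih (Matrix.of H') hG'
    refine ⟨M, ?_, hM2⟩
    rw [hHeq, hM1, smul_smul, pow_succ']

/-- **Tame discriminant bound, rank form.**  In residue characteristic zero the `ϖ`-adic
valuation of the discriminant is at most `n - rank (trace matrix mod ϖ)`. -/
theorem not_pow_dvd_det_traceMatrix
    [Algebra.IsSeparable (FractionRing A) (FractionRing B)] (b : Basis ι A B)
    (ϖ : A) (hϖ : Prime ϖ) [CharZero (A ⧸ Ideal.span {ϖ})] :
    ¬ ϖ ^ (Fintype.card ι -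
        ((Algebra.traceMatrix A b).map (Ideal.Quotient.mk (Ideal.span {ϖ}))).rank + 1) ∣
      (Algebra.traceMatrix A b).det := by
  have hpprime : (Ideal.span {ϖ}).IsPrime := (Ideal.span_singleton_prime hϖ.ne_zero).2 hϖ
  have hpmax : (Ideal.span {ϖ}).IsMaximal :=
    hpprime.isMaximal (by simpa using hϖ.ne_zero)
  set G := Algebra.traceMatrix A b with hG
  set q := Ideal.Quotient.mk (Ideal.span {ϖ}) with hq
  set ρ := (G.map q).rank with hρ
  have hρn : ρ ≤ Fintype.card ι := Matrix.rank_le_card_width _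
  have hd0 : G.det ≠ 0 := det_traceMatrix_ne_zero_of_basis b
  obtain ⟨s, hs1, hs2⟩ :=
    (FiniteMultiplicity.of_not_isUnit hϖ.not_isUnit hd0).exists_eq_pow_mul_and_not_dvd
  generalize multiplicity ϖ G.det = k at hs1
  have hkey : k + ρ ≤ Fintype.card ι := by
    rcases Nat.eq_zero_or_pos k with hk0 | hkpos
    · omega
    obtain ⟨j, rfl⟩ : ∃ j, k = j + 1 := ⟨k - 1, by omega⟩
    have hadj : G * G.adjugate = (ϖ ^ (j + 1) * s) • (1 : Matrix ι ι A) := by
      rw [Matrix.mul_adjugate, hs1]
    obtain ⟨M, -, hM⟩ := exists_eq_pow_smul_of_traceMatrix_mul_eq b ϖ hϖ s j _ hadj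
    have hGM : G.map q * M.map q = 0 := by
      rw [← Matrix.map_mul, hM]
      ext i l
      have : q (ϖ * s) = 0 := by
        rw [hq, Ideal.Quotient.eq_zero_iff_mem, Ideal.mem_span_singleton]
        exact Dvd.intro _ rfl
      simp [Matrix.map_apply, Matrix.smul_apply, this]
    have hrank : ρ + (M.map q).rank ≤ Fintype.card ι :=
      Matrix.rank_add_rank_le_card_of_mul_eq_zero hGM
    have hRM : ϖ ^ (Fintype.card ι - (M.map q).rank) ∣ M.det := pow_dvd_det_of_rank ϖ M
    have hρM : ϖ ^ ρ ∣ M.det := (pow_dvd_pow ϖ (by omega)).trans hRM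
    have hdet : G.det * M.det = (ϖ * s) ^ Fintype.card ι := by
      rw [← Matrix.det_mul, hM, Matrix.det_smul, Matrix.det_one, mul_one]
    by_contra hlt
    rw [not_le] at hlt
    have h1 : ϖ ^ (Fintype.card ι + 1) ∣ G.det * M.det := by
      have h0 : ϖ ^ (j + 1 + ρ) ∣ G.det * M.det := by
        rw [pow_add]
        exact mul_dvd_mul (hs1 ▸ Dvd.intro _ rfl) hρM
      exact (pow_dvd_pow ϖ (by omega)).trans h0
    rw [hdet, mul_pow, pow_succ] at h1
    have h2 : ϖ ∣ s ^ Fintype.card ι :=
      (mul_dvd_mul_iff_left (pow_ne_zero _ hϖ.ne_zero)).1 h1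
    exact hs2 (hϖ.dvd_of_dvd_pow h2)
  intro hdvd
  rw [hs1] at hdvd
  have h3 := hϖ.pow_dvd_of_dvd_mul_right _ hs2 hdvd
  rw [pow_dvd_pow_iff hϖ.ne_zero hϖ.not_isUnit] at h3
  omega

/-- In residue characteristic zero, an element all of whose traces `Tr (y z)` are divisible by
`ϖ` lies in the radical of `ϖ B`. -/
theorem mem_radical_of_forall_dvd_intTrace
    (ϖ : A) (hϖ : Prime ϖ) [CharZero (A ⧸ Ideal.span {ϖ})] (y : B)
    (h : ∀ z : B, ϖ ∣ Algebra.intTrace A B (y * z)) :
    y ∈ (Ideal.span {algebraMap A B ϖ}).radical := by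
  have hpprime : (Ideal.span {ϖ}).IsPrime := (Ideal.span_singleton_prime hϖ.ne_zero).2 hϖ
  have hpmax : (Ideal.span {ϖ}).IsMaximal :=
    hpprime.isMaximal (by simpa using hϖ.ne_zero)
  have hnil : IsNilpotent
      (Ideal.Quotient.mk ((Ideal.span {ϖ}).map (algebraMap A B)) y) := by
    apply isNilpotent_of_forall_trace_mul_eq_zero (κ := A ⧸ Ideal.span {ϖ})
    intro z'
    obtain ⟨z, rfl⟩ := Ideal.Quotient.mk_surjective z'
    rw [← map_mul, Algebra.trace_quotient_eq_of_isDedekindDomain,
      Ideal.Quotient.eq_zero_iff_mem, Ideal.mem_span_singleton]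
    exact h z
  obtain ⟨m, hm⟩ := hnil
  rw [← map_pow, Ideal.Quotient.eq_zero_iff_mem, Ideal.map_span, Set.image_singleton] at hm
  exact ⟨m, hm⟩

omit [DecidableEq ι] in
/-- **Rank of the reduced trace matrix.**  If `v_1, …, v_r ∈ B` are linearly independent modulo
the radical of `ϖ B` (over `A ⧸ ϖ`), then the trace matrix modulo `ϖ` has rank at least `r`. -/
theorem le_rank_traceMatrix_map (b : Basis ι A B)
    (ϖ : A) (hϖ : Prime ϖ) [CharZero (A ⧸ Ideal.span {ϖ})] {r : ℕ} (v : Fin r → B)
    (hv : ∀ a : Fin r → A, ∑ k, a k • v k ∈ (Ideal.span {algebraMap A B ϖ}).radical →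
      ∀ k, ϖ ∣ a k) :
    r ≤ ((Algebra.traceMatrix A b).map (Ideal.Quotient.mk (Ideal.span {ϖ}))).rank := by
  have hpprime : (Ideal.span {ϖ}).IsPrime := (Ideal.span_singleton_prime hϖ.ne_zero).2 hϖ
  have hpmax : (Ideal.span {ϖ}).IsMaximal :=
    hpprime.isMaximal (by simpa using hϖ.ne_zero)
  set G := Algebra.traceMatrix A b with hG
  set q := Ideal.Quotient.mk (Ideal.span {ϖ}) with hq
  let w : Fin r → (ι → A ⧸ Ideal.span {ϖ}) :=
    fun k => (G.map q) *ᵥ (fun i => q (b.equivFun (v k) i))
  have hw : LinearIndependent (A ⧸ Ideal.span {ϖ}) w := by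
    rw [Fintype.linearIndependent_iff]
    intro g hg
    choose α hα using fun k => Ideal.Quotient.mk_surjective (g k)
    have hα' : ∀ k, q (α k) = g k := hα
    set y : B := ∑ k, α k • v k with hy
    have h1 : ∀ i, ϖ ∣ Algebra.trace A B (y * b i) := by
      intro i
      have e1 : (G *ᵥ b.equivFun y) i = Algebra.trace A B (y * b i) :=
        congrFun (Algebra.traceMatrix_of_basis_mulVec b y) i
      rw [← e1, ← Ideal.mem_span_singleton, ← Ideal.Quotient.eq_zero_iff_mem]
      have e2 : q ((G *ᵥ b.equivFun y) i) = (∑ k, g k • w k) i := by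
        rw [RingHom.map_mulVec]
        have e3 : (⇑q ∘ b.equivFun y) =
            ∑ k, g k • (fun j => q (b.equivFun (v k) j)) := by
          ext j
          simp only [hy, map_sum, map_smul, Finset.sum_apply, Pi.smul_apply, smul_eq_mul,
            map_mul, hα', Function.comp_apply]
        rw [e3, Matrix.mulVec_sum]
        simp only [w, Matrix.mulVec_smul]
      rw [← hq, e2, hg]
      rfl
    have h2 := hv α (mem_radical_of_forall_dvd_intTrace ϖ hϖ y
      (dvd_intTrace_mul_of_basis b ϖ y h1))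
    intro k
    rw [← hα k, Ideal.Quotient.eq_zero_iff_mem, Ideal.mem_span_singleton]
    exact h2 k
  let w' : Fin r → LinearMap.range (G.map q).mulVecLin := fun k => ⟨w k, ⟨_, rfl⟩⟩
  have hw' : LinearIndependent (A ⧸ Ideal.span {ϖ}) w' :=
    LinearIndependent.of_comp (Submodule.subtype _) hw
  have := hw'.fintype_card_le_finrank
  simpa [Matrix.rank] using this

/-- **Tame discriminant bound.**  `A ⊆ B` Dedekind, `B` finite torsion-free over `A` with
separable fraction field extension, `b` an `A`-basis of `B`, `ϖ` a prime element of `A` with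
residue field of characteristic zero.  If `v_1, …, v_r ∈ B` are linearly independent modulo the
radical of `ϖ B`, then `ϖ ^ (n - r + 1)` does not divide the discriminant of `b`. -/
theorem tame_discr_bound
    [Algebra.IsSeparable (FractionRing A) (FractionRing B)] (b : Basis ι A B)
    (ϖ : A) (hϖ : Prime ϖ) [CharZero (A ⧸ Ideal.span {ϖ})] {r : ℕ} (v : Fin r → B)
    (hv : ∀ a : Fin r → A, ∑ k, a k • v k ∈ (Ideal.span {algebraMap A B ϖ}).radical →
      ∀ k, ϖ ∣ a k) :
    ¬ ϖ ^ (Fintype.card ι - r + 1) ∣ (Algebra.traceMatrix A b).det := by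
  intro hdvd
  have h1 := le_rank_traceMatrix_map b ϖ hϖ v hv
  refine not_pow_dvd_det_traceMatrix b ϖ hϖ ((pow_dvd_pow ϖ ?_).trans hdvd)
  omega

end Fermat.Agent.S18.H67
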