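import Fermat.Agent.S18.H67.TameDiscr

/-!
# The tame discriminant bound, AKLB form with a basis "up to a denominator"

`A` a principal ideal domain with fraction field `K`, `L / K` finite separable, `B` the integral
closure of `A` in `L`, `c : ι → B` a family of `[L : K]` elements with `g • B ⊆ span_A c`,
`ϖ` a prime of `A` not dividing `g` whose residue field has characteristic zero.  Then the
`ϖ`-adic valuation of `det (Tr_{L/K} (c i * c j))` is at most `[L : K] - r` as soon as `r`
elements of `B` are linearly independent modulo the radical of `ϖ B`.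
-/

namespace Fermat.Agent.S18.H67

open Module Matrix nonZeroDivisors

attribute [local instance] FractionRing.liftAlgebra FractionRing.isScalarTower_liftAlgebra

section

variable (A K L B : Type*) [CommRing A] [Field K] [CommRing B] [Field L]
  [Algebra A K] [Algebra B L] [Algebra A B] [Algebra K L] [Algebra A L]
  [IsScalarTower A K L] [IsScalarTower A B L] [IsDomain A] [IsFractionRing A K]
  [FiniteDimensional K L] [Algebra.IsSeparable K L] [IsIntegralClosure B A L]

omit [FiniteDimensional K L] [IsIntegralClosure B A L] in
include K L in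
/-- Separability passes to the canonical fraction rings. -/
theorem isSeparable_fractionRing_of_isIntegralClosure [IsDomain B] [IsFractionRing B L]
    [IsTorsionFree A B] :
    Algebra.IsSeparable (FractionRing A) (FractionRing B) := by
  have H : RingHom.comp (algebraMap (FractionRing A) (FractionRing B))
      ↑(FractionRing.algEquiv A K).symm.toRingEquiv =
        RingHom.comp ↑(FractionRing.algEquiv B L).symm.toRingEquiv (algebraMap K L) := by
    apply IsLocalization.ringHom_ext A⁰
    ext
    simp only [RingHom.coe_comp, RingHom.coe_coe,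
      AlgEquiv.coe_ringEquiv, Function.comp_apply, AlgEquiv.commutes,
      ← IsScalarTower.algebraMap_apply]
    rw [IsScalarTower.algebraMap_apply A B L, AlgEquiv.commutes, ← IsScalarTower.algebraMap_apply]
  exact Algebra.IsSeparable.of_equiv_equiv _ _ H

end

section

variable {A K L B : Type*} [CommRing A] [Field K] [CommRing B] [Field L]
  [Algebra A K] [Algebra B L] [Algebra A B] [Algebra K L] [Algebra A L]
  [IsScalarTower A K L] [IsScalarTower A B L] [IsDomain A] [IsPrincipalIdealRing A]
  [IsFractionRing A K] [FiniteDimensional K L] [Algebra.IsSeparable K L]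
  [IsIntegralClosure B A L]
  {ι : Type*} [Fintype ι] [DecidableEq ι]

/-- **Tame discriminant bound, family form.** -/
theorem tame_discr_bound_of_family
    (c : ι → B) (hcard : Fintype.card ι = Module.finrank K L)
    (g : A) (hgc : ∀ x : B, g • x ∈ Submodule.span A (Set.range c))
    (ϖ : A) (hϖ : Prime ϖ) (hg : ¬ ϖ ∣ g) [CharZero (A ⧸ Ideal.span {ϖ})]
    {r : ℕ} (v : Fin r → B)
    (hv : ∀ a : Fin r → A, ∑ k, a k • v k ∈ (Ideal.span {algebraMap A B ϖ}).radical →
      ∀ k, ϖ ∣ a k)
    (d : A)
    (hd : algebraMap A K d = (Algebra.traceMatrix K (fun i => algebraMap B L (c i))).det) :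
    ¬ ϖ ^ (Fintype.card ι - r + 1) ∣ d := by
  classical
  have hinjBL : Function.Injective (algebraMap B L) :=
    IsIntegralClosure.algebraMap_injective B A L
  have : IsDomain B := hinjBL.isDomain _
  have : IsDedekindDomain B := IsIntegralClosure.isDedekindDomain A K L B
  have : IsTorsionFree A L := .trans_faithfulSMul A K L
  have : IsTorsionFree A B := IsIntegralClosure.isTorsionFree A L
  have : Module.Finite A B := IsIntegralClosure.finite A K L B
  have : IsFractionRing B L := IsIntegralClosure.isFractionRing_of_finite_extension A K L B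
  have : Algebra.IsSeparable (FractionRing A) (FractionRing B) :=
    isSeparable_fractionRing_of_isIntegralClosure A K L B
  have : IsLocalization (Algebra.algebraMapSubmonoid B A⁰) L :=
    IsIntegralClosure.isLocalization A K L B
  have : Module.Free A B := inferInstance
  let b₀ := Module.Free.chooseBasis A B
  have hcard₀ : Fintype.card (Module.Free.ChooseBasisIndex A B) = Fintype.card ι := by
    rw [hcard, ← IsIntegralClosure.rank A K L B, Module.finrank_eq_card_chooseBasisIndex]
  let e := Fintype.equivOfCardEq hcard₀
  let b : Basis ι A B := b₀.reindex e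
  let T : Matrix ι ι A := Matrix.of fun i j => b.repr (c i) j
  have hc : c = (T.map (algebraMap A B)) *ᵥ (⇑b) := by
    ext i
    simp only [Matrix.mulVec, dotProduct, Matrix.map_apply, T, Matrix.of_apply]
    conv_lhs => rw [← b.sum_repr (c i)]
    refine Finset.sum_congr rfl fun j _ => ?_
    rw [Algebra.smul_def]
  have hGc : Algebra.traceMatrix A c = T * Algebra.traceMatrix A b * Tᵀ := by
    rw [hc]
    exact Algebra.traceMatrix_of_matrix_mulVec (⇑b) T
  have hS : ∀ j, ∃ s : ι → A, ∑ i, s i • c i = g • b j := fun j =>
    (Submodule.mem_span_range_iff_exists_fun A).1 (hgc (b j))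
  choose S hS using hS
  have hST : (Matrix.of S) * T = g • (1 : Matrix ι ι A) := by
    ext j l
    have h1 := congrArg (fun z => b.repr z l) (hS j)
    simp only [map_sum, map_smul, Finsupp.coe_finsetSum, Finsupp.coe_smul, Finset.sum_apply,
      Pi.smul_apply, smul_eq_mul, Basis.repr_self] at h1
    rw [Matrix.mul_apply, Matrix.smul_apply, Matrix.one_apply, smul_eq_mul]
    simp only [Matrix.of_apply, T]
    rw [h1, Finsupp.single_apply]
  have hdetT : ¬ ϖ ∣ T.det := by
    intro h
    have h1 : (Matrix.of S).det * T.det = g ^ Fintype.card ι := by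
      rw [← Matrix.det_mul, hST, Matrix.det_smul, Matrix.det_one, mul_one]
    exact hg (hϖ.dvd_of_dvd_pow (h1 ▸ Dvd.dvd.mul_left h _))
  have hd' : d = (Algebra.traceMatrix A c).det := by
    apply IsFractionRing.injective A K
    rw [hd, RingHom.map_det]
    congr 1
    ext i j
    simp only [Algebra.traceMatrix_apply, Algebra.traceForm_apply, RingHom.mapMatrix_apply,
      Matrix.map_apply, ← map_mul]
    exact Algebra.trace_localization A A⁰ (Rₘ := K) (Sₘ := L) (c i * c j)
  intro hdvd
  rw [hd', hGc, Matrix.det_mul, Matrix.det_mul, Matrix.det_transpose, mul_assoc] at hdvd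
  have h3 := hϖ.pow_dvd_of_dvd_mul_left _ hdetT hdvd
  have h4 := hϖ.pow_dvd_of_dvd_mul_right _ hdetT h3
  exact tame_discr_bound b ϖ hϖ v hv h4

end

end Fermat.Agent.S18.H67
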